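import Mathlib

/-!
# Klein's icosahedral forms and the universal elliptic curve with full level 5 structure

helper52 (P-ELL / S52).  All objects are polynomial functions on a field `K`; `ζ` denotes a root of
the fifth cyclotomic polynomial.  The curve attached to `v = (z, w)` is
`y ^ 2 = x ^ 3 + 27 * HF z w * x + 54 * TF z w`; `P = (XX, YY)`, `2P = (X2, Y2)`,
`Q = (N10 / 5, M10 / 5)`, `2Q` is obtained from `Q` by `ζ ↦ ζ ^ 2`.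
-/

set_option autoImplicit false

namespace Fermat.Agent.S52.Klein

variable {K : Type*} [Field K]

/-- `H` as a function of `a = z ^ 5`, `b = w ^ 5`. -/
def hF (a b : K) : K := -b^4 - 228*a*b^3 - 494*a^2*b^2 + 228*a^3*b - a^4

/-- `T` as a function of `a = z ^ 5`, `b = w ^ 5`. -/
def tF (a b : K) : K := b^6 - 522*a*b^5 - 10005*a^2*b^4 - 10005*a^4*b^2 + 522*a^5*b + a^6

/-- `f / (z w)` as a function of `a = z ^ 5`, `b = w ^ 5`. -/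
def gF (a b : K) : K := -b^2 + 11*a*b + a^2

/-- the icosahedral form of degree 12 (vertices). -/
def fF (z w : K) : K := z * w * gF (z ^ 5) (w ^ 5)

/-- the icosahedral form of degree 20 (faces). -/
def HF (z w : K) : K := hF (z ^ 5) (w ^ 5)

/-- the icosahedral form of degree 30 (edges). -/
def TF (z w : K) : K := tF (z ^ 5) (w ^ 5)

/-- `x(P)`. -/
def XX (z w : K) : K := 3*w^10 + 36*z*w^9 + 72*z^2*w^8 + 108*z^3*w^7 + 180*z^4*w^6 + 90*z^5*w^5 + 72*z^6*w^4 - 36*z^7*w^3 + 36*z^8*w^2 + 3*z^10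

/-- `y(P)`. -/
def YY (z w : K) : K := 108*z*w^14 + 432*z^2*w^13 + 972*z^3*w^12 + 1620*z^4*w^11 + 2700*z^5*w^10 + 3132*z^6*w^9 + 2268*z^7*w^8 + 648*z^8*w^7 + 540*z^9*w^6 + 432*z^11*w^4 + 108*z^12*w^3 + 108*z^13*w^2

/-- `x(2P)`. -/
def X2 (z w : K) : K := 3*w^10 + 36*z^2*w^8 + 36*z^3*w^7 + 72*z^4*w^6 - 90*z^5*w^5 + 180*z^6*w^4 - 108*z^7*w^3 + 72*z^8*w^2 - 36*z^9*w + 3*z^10

/-- `y(2P)`. -/
def Y2 (z w : K) : K := 108*z^2*w^13 - 108*z^3*w^12 + 432*z^4*w^11 + 540*z^6*w^9 - 648*z^7*w^8 + 2268*z^8*w^7 - 3132*z^9*w^6 + 2700*z^10*w^5 - 1620*z^11*w^4 + 972*z^12*w^3 - 432*z^13*w^2 + 108*z^14*w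

/-- `5 x(Q)` as a function of `a = z ^ 5`, `b = w ^ 5`. -/
def n10 (ζ a b : K) : K := -57*b^2 + 36*b^2*ζ^2 + 36*b^2*ζ^3 - 198*a*b - 396*a*b*ζ^2 - 396*a*b*ζ^3 - 93*a^2 - 36*a^2*ζ^2 - 36*a^2*ζ^3

/-- `5 y(Q)` as a function of `a = z ^ 5`, `b = w ^ 5`. -/
def m10 (ζ a b : K) : K := -216*b^3 - 432*b^3*ζ - 324*b^3*ζ^2 - 108*b^3*ζ^3 + 2484*a*b^2 + 4968*a*b^2*ζ + 3456*a*b^2*ζ^2 + 1512*a*b^2*ζ^3 - 972*a^2*b - 1944*a^2*b*ζ + 1512*a^2*b*ζ^2 - 3456*a^2*b*ζ^3 - 108*a^3 - 216*a^3*ζ + 108*a^3*ζ^2 - 324*a^3*ζ^3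

/-- `5 x(Q)`. -/
def N10 (ζ z w : K) : K := n10 ζ (z ^ 5) (w ^ 5)

/-- `5 y(Q)`. -/
def M10 (ζ z w : K) : K := m10 ζ (z ^ 5) (w ^ 5)

/-- `√5`. -/
def sqrt5 (ζ : K) : K := ζ + ζ ^ 4 - ζ ^ 2 - ζ ^ 3

/-- first coordinate of `√5 • S v`. -/
def Sz (ζ z w : K) : K := -(ζ - ζ ^ 4) * z + (ζ ^ 2 - ζ ^ 3) * w

/-- second coordinate of `√5 • S v`. -/
def Sw (ζ z w : K) : K := (ζ ^ 2 - ζ ^ 3) * z + (ζ - ζ ^ 4) * w

/-- first coordinate of the gradient covariant `(∂f/∂w, -∂f/∂z)`. -/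
def wf1 (z w : K) : K := z * ((z ^ 5) ^ 2 + 66 * z ^ 5 * w ^ 5 - 11 * (w ^ 5) ^ 2)

/-- second coordinate of the gradient covariant `(∂f/∂w, -∂f/∂z)`. -/
def wf2 (z w : K) : K := -w * (11 * (z ^ 5) ^ 2 + 66 * z ^ 5 * w ^ 5 - (w ^ 5) ^ 2)

end Fermat.Agent.S52.Klein
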