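import Fermat.Agent.S52.Klein.Forms

/-!
# Identities between Klein's forms (certificates generated by exact computer algebra)
-/

set_option autoImplicit false
set_option maxHeartbeats 1600000
set_option maxRecDepth 8000
set_option linter.unusedSimpArgs false

namespace Fermat.Agent.S52.Klein

variable {K : Type*} [Field K]

theorem Sz_pow5 (z w ζ : K) (hζ : ζ ^ 4 + ζ ^ 3 + ζ ^ 2 + ζ + 1 = 0) :
    Sz ζ z w ^ 5 = -5*w^5 - 10*w^5*ζ + 5*w^5*ζ^2 - 15*w^5*ζ^3 - 25*z*w^4 - 50*z*w^4*ζ - 50*z*w^4*ζ^3 + 50*z^2*w^3*ζ^2 - 50*z^2*w^3*ζ^3 - 50*z^3*w^2 - 100*z^3*w^2*ζ - 50*z^3*w^2*ζ^2 - 50*z^3*w^2*ζ^3 + 25*z^4*w + 50*z^4*w*ζ + 50*z^4*w*ζ^2 - 10*z^5 - 20*z^5*ζ - 15*z^5*ζ^2 - 5*z^5*ζ^3 := by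
  simp only [Sz]
  linear_combination ((5*w^5 + 25*z*w^4 + 50*z^3*w^2 - 25*z^4*w + 10*z^5) + ζ*(5*w^5 + 25*z*w^4 + 50*z^3*w^2 - 25*z^4*w + 10*z^5) + ζ^2*(-15*w^5 - 50*z*w^4 - 50*z^2*w^3 - 50*z^3*w^2 - 5*z^5) + ζ^3*(20*w^5 + 50*z*w^4 + 100*z^2*w^3 + 50*z^4*w - 10*z^5) + ζ^4*(-15*w^5 - 50*z*w^4 - 50*z^2*w^3 - 50*z^3*w^2 - 5*z^5) + ζ^5*(5*w^5 + 25*z*w^4 + 50*z^3*w^2 - 25*z^4*w + 9*z^5) + ζ^6*(5*w^5 + 25*z*w^4 + 50*z^3*w^2 - 20*z^4*w + 11*z^5) + ζ^7*(-15*w^5 - 50*z*w^4 - 50*z^2*w^3 - 60*z^3*w^2 - 10*z^4*w - 5*z^5) + ζ^8*(20*w^5 + 50*z*w^4 + 110*z^2*w^3 + 30*z^3*w^2 + 55*z^4*w - 5*z^5) + ζ^9*(-15*w^5 - 55*z*w^4 - 90*z^2*w^3 - 80*z^3*w^2 - 20*z^4*w - 10*z^5) + ζ^10*(6*w^5 + 50*z*w^4 + 60*z^2*w^3 + 90*z^3*w^2 + 15*z^4*w + 9*z^5) + ζ^11*(-w^5 - 25*z*w^4 - 60*z^2*w^3 - 40*z^3*w^2 - 40*z^4*w + z^5)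 + ζ^12*(5*z*w^4 + 40*z^2*w^3 + 30*z^3*w^2 + 20*z^4*w + 5*z^5) + ζ^13*(-10*z^2*w^3 - 30*z^3*w^2 - 5*z^4*w - 5*z^5) + ζ^14*(10*z^3*w^2 + 10*z^4*w) + ζ^15*(-5*z^4*w - z^5) + ζ^16*(z^5)) * hζ

theorem Sw_pow5 (z w ζ : K) (hζ : ζ ^ 4 + ζ ^ 3 + ζ ^ 2 + ζ + 1 = 0) :
    Sw ζ z w ^ 5 = 10*w^5 + 20*w^5*ζ + 15*w^5*ζ^2 + 5*w^5*ζ^3 + 25*z*w^4 + 50*z*w^4*ζ + 50*z*w^4*ζ^2 + 50*z^2*w^3 + 100*z^2*w^3*ζ + 50*z^2*w^3*ζ^2 + 50*z^2*w^3*ζ^3 + 50*z^3*w^2*ζ^2 - 50*z^3*w^2*ζ^3 + 25*z^4*w + 50*z^4*w*ζ + 50*z^4*w*ζ^3 - 5*z^5 - 10*z^5*ζ + 5*z^5*ζ^2 - 15*z^5*ζ^3 := by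
  simp only [Sw]
  linear_combination ((-10*w^5 - 25*z*w^4 - 50*z^2*w^3 - 25*z^4*w + 5*z^5) + ζ*(-10*w^5 - 25*z*w^4 - 50*z^2*w^3 - 25*z^4*w + 5*z^5) + ζ^2*(5*w^5 + 50*z^2*w^3 - 50*z^3*w^2 + 50*z^4*w - 15*z^5) + ζ^3*(10*w^5 + 50*z*w^4 + 100*z^3*w^2 - 50*z^4*w + 20*z^5) + ζ^4*(5*w^5 + 50*z^2*w^3 - 50*z^3*w^2 + 50*z^4*w - 15*z^5) + ζ^5*(-9*w^5 - 25*z*w^4 - 50*z^2*w^3 - 25*z^4*w + 5*z^5) + ζ^6*(-11*w^5 - 20*z*w^4 - 50*z^2*w^3 - 25*z^4*w + 5*z^5) + ζ^7*(5*w^5 - 10*z*w^4 + 60*z^2*w^3 - 50*z^3*w^2 + 50*z^4*w - 15*z^5) + ζ^8*(5*w^5 + 55*z*w^4 - 30*z^2*w^3 + 110*z^3*w^2 - 50*z^4*w + 20*z^5) + ζ^9*(10*w^5 - 20*z*w^4 + 80*z^2*w^3 - 90*z^3*w^2 + 55*z^4*w - 15*z^5) + ζ^10*(-9*w^5 + 15*z*w^4 - 90*z^2*w^3 + 60*z^3*w^2 - 50*z^4*w + 6*z^5) + ζ^11*(-w^5 - 40*z*w^4 + 40*z^2*w^3 - 60*z^3*w^2 + 25*z^4*w - z^5)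 + ζ^12*(-5*w^5 + 20*z*w^4 - 30*z^2*w^3 + 40*z^3*w^2 - 5*z^4*w) + ζ^13*(5*w^5 - 5*z*w^4 + 30*z^2*w^3 - 10*z^3*w^2) + ζ^14*(10*z*w^4 - 10*z^2*w^3) + ζ^15*(w^5 - 5*z*w^4) + ζ^16*(-w^5)) * hζ

theorem Sz_mul_Sw (z w ζ : K) (hζ : ζ ^ 4 + ζ ^ 3 + ζ ^ 2 + ζ + 1 = 0) :
    Sz ζ z w * Sw ζ z w = w^2 + 2*w^2*ζ^2 + 2*w^2*ζ^3 - z*w - 2*z*w*ζ^2 - 2*z*w*ζ^3 - z^2 - 2*z^2*ζ^2 - 2*z^2*ζ^3 := by
  simp only [Sz, Sw]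
  linear_combination ((-w^2 + z*w + z^2) + ζ*(w^2 - z*w - z^2) + ζ^2*(-2*w^2 + z*w + 2*z^2) + ζ^3*(w^2 + z*w - z^2) + ζ^4*(-z*w)) * hζ

theorem Sz_Sz (z w ζ : K) (hζ : ζ ^ 4 + ζ ^ 3 + ζ ^ 2 + ζ + 1 = 0) :
    Sz ζ (Sz ζ z w) (Sw ζ z w) = -5 * z := by
  simp only [Sz, Sw]
  linear_combination ((5*z) + ζ*(-5*z) + ζ^2*(z) + ζ^3*(-z) + ζ^4*(z)) * hζ

theorem Sw_Sz (z w ζ : K) (hζ : ζ ^ 4 + ζ ^ 3 + ζ ^ 2 + ζ + 1 = 0) :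
    Sw ζ (Sz ζ z w) (Sw ζ z w) = -5 * w := by
  simp only [Sz, Sw]
  linear_combination ((5*w) + ζ*(-5*w) + ζ^2*(w) + ζ^3*(-w) + ζ^4*(w)) * hζ

theorem HF_S (z w ζ : K) (hζ : ζ ^ 4 + ζ ^ 3 + ζ ^ 2 + ζ + 1 = 0) :
    HF (Sz ζ z w) (Sw ζ z w) = 5 ^ 10 * HF z w := by
  simp only [HF, hF]
  rw [Sz_pow5 z w ζ hζ, Sw_pow5 z w ζ hζ]
  linear_combination ((9375000*w^20 - 9375000*z*w^19 - 65625000*z^2*w^18 - 225000000*z^3*w^17 - 590625000*z^4*w^16 + 1153125000*z^5*w^15 - 1884375000*z^6*w^14 - 2081250000*z^7*w^13 - 2615625000*z^8*w^12 - 1246875000*z^9*w^11 + 2568750000*z^10*w^10 + 1246875000*z^11*w^9 - 2615625000*z^12*w^8 + 2081250000*z^13*w^7 - 1884375000*z^14*w^6 - 1153125000*z^15*w^5 - 590625000*z^16*w^4 + 225000000*z^17*w^3 - 65625000*z^18*w^2 + 9375000*z^19*w + 9375000*z^20) + ζ*(-12500000*w^20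 - 65625000*z*w^19 - 459375000*z^2*w^18 - 1575000000*z^3*w^17 - 4134375000*z^4*w^16 - 9740625000*z^5*w^15 - 13190625000*z^6*w^14 - 14568750000*z^7*w^13 - 18309375000*z^8*w^12 - 8728125000*z^9*w^11 - 20612500000*z^10*w^10 + 8728125000*z^11*w^9 - 18309375000*z^12*w^8 + 14568750000*z^13*w^7 - 13190625000*z^14*w^6 + 9740625000*z^15*w^5 - 4134375000*z^16*w^4 + 1575000000*z^17*w^3 - 459375000*z^18*w^2 + 65625000*z^19*w - 12500000*z^20) + ζ^2*(-3125000*w^20 - 121875000*z*w^19 - 946875000*z^2*w^18 - 3112500000*z^3*w^17 - 8146875000*z^4*w^16 - 14446875000*z^5*w^15 - 26371875000*z^6*w^14 - 28556250000*z^7*w^13 - 36534375000*z^8*w^12 - 18084375000*z^9*w^11 - 29762500000*z^10*w^10 + 18084375000*z^11*w^9 - 36534375000*z^12*w^8 + 28556250000*z^13*w^7 - 26371875000*z^14*w^6 + 14446875000*z^15*w^5 - 8146875000*z^16*w^4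 + 3112500000*z^17*w^3 - 946875000*z^18*w^2 + 121875000*z^19*w - 3125000*z^20) + ζ^3*(6250000*w^20 - 37500000*z*w^19 - 637500000*z^2*w^18 - 1650000000*z^3*w^17 - 4237500000*z^4*w^16 - 6262500000*z^5*w^15 - 15037500000*z^6*w^14 - 14325000000*z^7*w^13 - 20587500000*z^8*w^12 - 12487500000*z^9*w^11 - 10787500000*z^10*w^10 + 12487500000*z^11*w^9 - 20587500000*z^12*w^8 + 14325000000*z^13*w^7 - 15037500000*z^14*w^6 + 6262500000*z^15*w^5 - 4237500000*z^16*w^4 + 1650000000*z^17*w^3 - 637500000*z^18*w^2 + 37500000*z^19*w + 6250000*z^20) + ζ^4*(-93750000*z*w^19 - 937500000*z^2*w^18 - 2812500000*z^3*w^17 - 7312500000*z^4*w^16 - 12656250000*z^5*w^15 - 24468750000*z^6*w^14 - 25312500000*z^7*w^13 - 33750000000*z^8*w^12 - 18093750000*z^9*w^11 - 24843750000*z^10*w^10 + 18093750000*z^11*w^9 - 33750000000*z^12*w^8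 + 25312500000*z^13*w^7 - 24468750000*z^14*w^6 + 12656250000*z^15*w^5 - 7312500000*z^16*w^4 + 2812500000*z^17*w^3 - 937500000*z^18*w^2 + 93750000*z^19*w) + ζ^5*(-9375000*w^20 - 318750000*z*w^19 - 2043750000*z^2*w^18 - 7275000000*z^3*w^17 - 19143750000*z^4*w^16 - 33731250000*z^5*w^15 - 60318750000*z^6*w^14 - 67762500000*z^7*w^13 - 83868750000*z^8*w^12 - 38643750000*z^9*w^11 - 71943750000*z^10*w^10 + 38643750000*z^11*w^9 - 83868750000*z^12*w^8 + 67762500000*z^13*w^7 - 60318750000*z^14*w^6 + 33731250000*z^15*w^5 - 19143750000*z^16*w^4 + 7275000000*z^17*w^3 - 2043750000*z^18*w^2 + 318750000*z^19*w - 9375000*z^20) + ζ^6*(-18750000*w^20 - 262500000*z*w^19 - 1650000000*z^2*w^18 - 5925000000*z^3*w^17 - 15600000000*z^4*w^16 - 29962500000*z^5*w^15 - 49012500000*z^6*w^14 - 55275000000*z^7*w^13 - 68175000000*z^8*w^12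 - 31162500000*z^9*w^11 - 64200000000*z^10*w^10 + 31162500000*z^11*w^9 - 68175000000*z^12*w^8 + 55275000000*z^13*w^7 - 49012500000*z^14*w^6 + 29962500000*z^15*w^5 - 15600000000*z^16*w^4 + 5925000000*z^17*w^3 - 1650000000*z^18*w^2 + 262500000*z^19*w - 18750000*z^20) + ζ^7*(-12500000*w^20 - 206250000*z*w^19 - 1162500000*z^2*w^18 - 4387500000*z^3*w^17 - 11587500000*z^4*w^16 - 21693750000*z^5*w^15 - 35831250000*z^6*w^14 - 41287500000*z^7*w^13 - 49950000000*z^8*w^12 - 21806250000*z^9*w^11 - 47331250000*z^10*w^10 + 21806250000*z^11*w^9 - 49950000000*z^12*w^8 + 41287500000*z^13*w^7 - 35831250000*z^14*w^6 + 21693750000*z^15*w^5 - 11587500000*z^16*w^4 + 4387500000*z^17*w^3 - 1162500000*z^18*w^2 + 206250000*z^19*w - 12500000*z^20) + ζ^8*(-6250000*w^20 - 56250000*z*w^19 - 300000000*z^2*w^18 - 1162500000*z^3*w^17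 - 3075000000*z^4*w^16 - 6393750000*z^5*w^15 - 9431250000*z^6*w^14 - 10987500000*z^7*w^13 - 13162500000*z^8*w^12 - 5606250000*z^9*w^11 - 14056250000*z^10*w^10 + 5606250000*z^11*w^9 - 13162500000*z^12*w^8 + 10987500000*z^13*w^7 - 9431250000*z^14*w^6 + 6393750000*z^15*w^5 - 3075000000*z^16*w^4 + 1162500000*z^17*w^3 - 300000000*z^18*w^2 + 56250000*z^19*w - 6250000*z^20)) * hζ

theorem fF_S (z w ζ : K) (hζ : ζ ^ 4 + ζ ^ 3 + ζ ^ 2 + ζ + 1 = 0) :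
    fF (Sz ζ z w) (Sw ζ z w) = 5 ^ 6 * fF z w := by
  simp only [fF, gF]
  rw [Sz_pow5 z w ζ hζ, Sw_pow5 z w ζ hζ, Sz_mul_Sw z w ζ hζ]
  linear_combination ((-625*w^12 + 11875*z*w^11 - 5625*z^2*w^10 - 6250*z^3*w^9 + 18750*z^4*w^8 + 3750*z^5*w^7 - 115000*z^6*w^6 - 3750*z^7*w^5 + 18750*z^8*w^4 + 6250*z^9*w^3 - 5625*z^10*w^2 - 11875*z^11*w - 625*z^12) + ζ*(-1875*w^12 - 26875*z*w^11 - 16875*z^2*w^10 - 18750*z^3*w^9 + 56250*z^4*w^8 + 11250*z^5*w^7 + 342500*z^6*w^6 - 11250*z^7*w^5 + 56250*z^8*w^4 + 18750*z^9*w^3 - 16875*z^10*w^2 + 26875*z^11*w - 1875*z^12) + ζ^2*(-1875*w^12 - 14375*z*w^11 - 16875*z^2*w^10 - 18750*z^3*w^9 + 56250*z^4*w^8 + 11250*z^5*w^7 + 205000*z^6*w^6 - 11250*z^7*w^5 + 56250*z^8*w^4 + 18750*z^9*w^3 - 16875*z^10*w^2 + 14375*z^11*w - 1875*z^12) + ζ^3*(-5000*w^12 - 30000*z*w^11 -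 45000*z^2*w^10 - 50000*z^3*w^9 + 150000*z^4*w^8 + 30000*z^5*w^7 + 455000*z^6*w^6 - 30000*z^7*w^5 + 150000*z^8*w^4 + 50000*z^9*w^3 - 45000*z^10*w^2 + 30000*z^11*w - 5000*z^12) + ζ^4*(-5000*w^12 - 30000*z*w^11 - 45000*z^2*w^10 - 50000*z^3*w^9 + 150000*z^4*w^8 + 30000*z^5*w^7 + 455000*z^6*w^6 - 30000*z^7*w^5 + 150000*z^8*w^4 + 50000*z^9*w^3 - 45000*z^10*w^2 + 30000*z^11*w - 5000*z^12) + ζ^5*(-1250*w^12 - 1250*z*w^11 - 11250*z^2*w^10 - 12500*z^3*w^9 + 37500*z^4*w^8 + 7500*z^5*w^7 + 45000*z^6*w^6 - 7500*z^7*w^5 + 37500*z^8*w^4 + 12500*z^9*w^3 - 11250*z^10*w^2 + 1250*z^11*w - 1250*z^12)) * hζ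

theorem N10_S (z w ζ : K) (hζ : ζ ^ 4 + ζ ^ 3 + ζ ^ 2 + ζ + 1 = 0) :
    N10 ζ (Sz ζ z w) (Sw ζ z w) = 5 ^ 6 * XX z w := by
  simp only [N10, n10, XX]
  rw [Sz_pow5 z w ζ hζ, Sw_pow5 z w ζ hζ]
  linear_combination ((-45000*w^10 - 540000*z*w^9 - 1102500*z^2*w^8 - 1530000*z^3*w^7 - 2970000*z^4*w^6 - 855000*z^5*w^5 - 1755000*z^6*w^4 + 1170000*z^7*w^3 - 922500*z^8*w^2 + 135000*z^9*w - 67500*z^10) + ζ*(52500*w^10 + 630000*z*w^9 + 1192500*z^2*w^8 + 2160000*z^3*w^7 + 2340000*z^4*w^6 + 3060000*z^5*w^5 - 765000*z^6*w^4 + 1260000*z^7*w^3 - 517500*z^8*w^2 + 405000*z^9*w - 15000*z^10) + ζ^2*(15000*w^10 + 180000*z*w^9 + 292500*z^2*w^8 + 810000*z^3*w^7 + 90000*z^4*w^6 + 1935000*z^5*w^5 - 1665000*z^6*w^4 + 1710000*z^7*w^3 - 967500*z^8*w^2 + 405000*z^9*w - 52500*z^10) + ζ^3*(90000*w^10 + 630000*z*w^9 + 1530000*z^2*w^8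 + 3060000*z^3*w^7 + 1890000*z^4*w^6 + 4410000*z^5*w^5 - 1890000*z^6*w^4 + 3060000*z^7*w^3 - 1530000*z^8*w^2 + 630000*z^9*w - 90000*z^10) + ζ^4*(90000*w^10 + 630000*z*w^9 + 1530000*z^2*w^8 + 3060000*z^3*w^7 + 1890000*z^4*w^6 + 4410000*z^5*w^5 - 1890000*z^6*w^4 + 3060000*z^7*w^3 - 1530000*z^8*w^2 + 630000*z^9*w - 90000*z^10) + ζ^5*(22500*w^10 + 45000*z*w^9 + 270000*z^2*w^8 + 540000*z^3*w^7 + 135000*z^4*w^6 + 540000*z^5*w^5 - 135000*z^6*w^4 + 540000*z^7*w^3 - 270000*z^8*w^2 + 45000*z^9*w - 22500*z^10)) * hζ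

theorem M10_S (z w ζ : K) (hζ : ζ ^ 4 + ζ ^ 3 + ζ ^ 2 + ζ + 1 = 0) :
    M10 ζ (Sz ζ z w) (Sw ζ z w) = -(5 ^ 8 * sqrt5 ζ * YY z w) := by
  simp only [M10, m10, YY, sqrt5]
  rw [Sz_pow5 z w ζ hζ, Sw_pow5 z w ζ hζ]
  linear_combination ((-1687500*w^15 - 16875000*z*w^14 - 70875000*z^2*w^13 - 194062500*z^3*w^12 - 347625000*z^4*w^11 - 487687500*z^5*w^10 - 497812500*z^6*w^9 - 410062500*z^7*w^8 - 202500000*z^8*w^7 - 167062500*z^9*w^6 + 1687500*z^10*w^5 - 42187500*z^11*w^4 + 11812500*z^12*w^3 - 8437500*z^13*w^2 + 1687500*z^14*w) + ζ*(-11812500*w^15 - 75937500*z*w^14 - 327375000*z^2*w^13 - 978750000*z^3*w^12 - 1800562500*z^4*w^11 - 2359125000*z^5*w^10 - 2261250000*z^6*w^9 - 1984500000*z^7*w^8 - 1164375000*z^8*w^7 - 958500000*z^9*w^6 + 11812500*z^10*w^5 - 126562500*z^11*w^4 + 124875000*z^12*w^3 - 16875000*z^13*w^2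 + 11812500*z^14*w) + ζ^2*(-32062500*w^15 - 413437500*z*w^14 - 1717875000*z^2*w^13 - 4522500000*z^3*w^12 - 7997062500*z^4*w^11 - 11586375000*z^5*w^10 - 12150000000*z^6*w^9 - 9740250000*z^7*w^8 - 4404375000*z^8*w^7 - 3638250000*z^9*w^6 + 32062500*z^10*w^5 - 1172812500*z^11*w^4 + 131625000*z^12*w^3 - 253125000*z^13*w^2 + 32062500*z^14*w) + ζ^3*(-47250000*w^15 - 506250000*z*w^14 - 2119500000*z^2*w^13 - 5737500000*z^3*w^12 - 10239750000*z^4*w^11 - 14499000000*z^5*w^10 - 14917500000*z^6*w^9 - 12190500000*z^7*w^8 - 5872500000*z^8*w^7 - 4846500000*z^9*w^6 + 47250000*z^10*w^5 - 1316250000*z^11*w^4 + 297000000*z^12*w^3 - 270000000*z^13*w^2 + 47250000*z^14*w) + ζ^4*(-50625000*w^15 - 455625000*z*w^14 - 1923750000*z^2*w^13 - 5366250000*z^3*w^12 - 9669375000*z^4*w^11 - 13365000000*z^5*w^10 - 13466250000*z^6*w^9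 - 11238750000*z^7*w^8 - 5771250000*z^8*w^7 - 4758750000*z^9*w^6 + 50625000*z^10*w^5 - 1063125000*z^11*w^4 + 405000000*z^12*w^3 - 202500000*z^13*w^2 + 50625000*z^14*w) + ζ^5*(-40500000*w^15 - 438750000*z*w^14 - 1836000000*z^2*w^13 - 4961250000*z^3*w^12 - 8849250000*z^4*w^11 - 12548250000*z^5*w^10 - 12926250000*z^6*w^9 - 10550250000*z^7*w^8 - 5062500000*z^8*w^7 - 4178250000*z^9*w^6 + 40500000*z^10*w^5 - 1147500000*z^11*w^4 + 249750000*z^12*w^3 - 236250000*z^13*w^2 + 40500000*z^14*w) + ζ^6*(-13500000*w^15 - 67500000*z*w^14 - 297000000*z^2*w^13 - 945000000*z^3*w^12 - 1768500000*z^4*w^11 - 2214000000*z^5*w^10 - 2025000000*z^6*w^9 - 1863000000*z^7*w^8 - 1215000000*z^8*w^7 - 999000000*z^9*w^6 + 13500000*z^10*w^5 - 67500000*z^11*w^4 + 162000000*z^12*w^3 + 13500000*z^14*w) + ζ^7*(-10125000*w^15 - 118125000*z*w^14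 - 492750000*z^2*w^13 - 1316250000*z^3*w^12 - 2338875000*z^4*w^11 - 3348000000*z^5*w^10 - 3476250000*z^6*w^9 - 2814750000*z^7*w^8 - 1316250000*z^8*w^7 - 1086750000*z^9*w^6 + 10125000*z^10*w^5 - 320625000*z^11*w^4 + 54000000*z^12*w^3 - 67500000*z^13*w^2 + 10125000*z^14*w) + ζ^8*(-3375000*w^15 - 16875000*z*w^14 - 74250000*z^2*w^13 - 236250000*z^3*w^12 - 442125000*z^4*w^11 - 553500000*z^5*w^10 - 506250000*z^6*w^9 - 465750000*z^7*w^8 - 303750000*z^8*w^7 - 249750000*z^9*w^6 + 3375000*z^10*w^5 - 16875000*z^11*w^4 + 40500000*z^12*w^3 + 3375000*z^14*w)) * hζ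

end Fermat.Agent.S52.Klein
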