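import Fermat.Agent.S52.Klein.Forms

/-!
# More identities between Klein's forms: non-degeneracy of `Q`, homogeneity
-/

set_option autoImplicit false
set_option maxHeartbeats 1600000
set_option maxRecDepth 8000
set_option linter.unusedSimpArgs false

namespace Fermat.Agent.S52.Klein

variable {K : Type*} [Field K]

theorem M10_mul_M20 (z w ζ : K) (hζ : ζ ^ 4 + ζ ^ 3 + ζ ^ 2 + ζ + 1 = 0) :
    20 * M10 ζ z w * M10 (ζ ^ 2) z w = -(N10 (ζ ^ 2) z w - N10 ζ z w) ^ 3 := by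
  simp only [fF, HF, TF, hF, tF, gF, XX, YY, X2, Y2, N10, M10, n10, m10]
  linear_combination ((933120*w^30 - 21461760*z^5*w^25 + 131803200*z^10*w^20 - 95644800*z^15*w^15 + 8164800*z^20*w^10 + 4199040*z^25*w^5 + 233280*z^30) + ζ*(933120*w^30 - 21461760*z^5*w^25 + 131803200*z^10*w^20 - 95644800*z^15*w^15 + 8164800*z^20*w^10 + 4199040*z^25*w^5 + 233280*z^30) + ζ^2*(1399680*w^30 - 31026240*z^5*w^25 + 171460800*z^10*w^20 + 8164800*z^15*w^15 - 31492800*z^20*w^10 - 5365440*z^25*w^5 - 233280*z^30) + ζ^3*(933120*w^30 - 23794560*z^5*w^25 + 184291200*z^10*w^20 - 398908800*z^15*w^15 + 95644800*z^20*w^10 + 27527040*z^25*w^5 + 1399680*z^30) + ζ^4*(4665600*z^5*w^25 - 104976000*z^10*w^20 + 606528000*z^15*w^15 - 174960000*z^20*w^10 - 46656000*z^25*w^5 - 2332800*z^30) + ζ^5*(466560*w^30 - 14230080*z^5*w^25 + 144633600*z^10*w^20 - 502718400*z^15*w^15 + 135302400*z^20*w^10 + 37091520*z^25*w^5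 + 1866240*z^30) + ζ^6*(-279936*w^30 + 9237888*z^5*w^25 - 100776960*z^10*w^20 + 354119040*z^15*w^15 + 100776960*z^20*w^10 + 9237888*z^25*w^5 + 279936*z^30) + ζ^7*(373248*w^30 - 12317184*z^5*w^25 + 134369280*z^10*w^20 - 472158720*z^15*w^15 - 134369280*z^20*w^10 - 12317184*z^25*w^5 - 373248*z^30) + ζ^8*(139968*w^30 - 4618944*z^5*w^25 + 50388480*z^10*w^20 - 177059520*z^15*w^15 - 50388480*z^20*w^10 - 4618944*z^25*w^5 - 139968*z^30) + ζ^9*(-233280*w^30 + 7698240*z^5*w^25 - 83980800*z^10*w^20 + 295099200*z^15*w^15 + 83980800*z^20*w^10 + 7698240*z^25*w^5 + 233280*z^30) + ζ^10*(139968*w^30 - 4618944*z^5*w^25 + 50388480*z^10*w^20 - 177059520*z^15*w^15 - 50388480*z^20*w^10 - 4618944*z^25*w^5 - 139968*z^30) + ζ^11*(-279936*w^30 + 9237888*z^5*w^25 - 100776960*z^10*w^20 + 354119040*z^15*w^15 + 100776960*z^20*w^10 + 9237888*z^25*w^5 + 279936*z^30) + ζ^12*(139968*w^30 - 4618944*z^5*w^25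 + 50388480*z^10*w^20 - 177059520*z^15*w^15 - 50388480*z^20*w^10 - 4618944*z^25*w^5 - 139968*z^30) + ζ^13*(-46656*w^30 + 1539648*z^5*w^25 - 16796160*z^10*w^20 + 59019840*z^15*w^15 + 16796160*z^20*w^10 + 1539648*z^25*w^5 + 46656*z^30) + ζ^14*(46656*w^30 - 1539648*z^5*w^25 + 16796160*z^10*w^20 - 59019840*z^15*w^15 - 16796160*z^20*w^10 - 1539648*z^25*w^5 - 46656*z^30)) * hζ

theorem N20_sub_N10 (z w ζ : K) (hζ : ζ ^ 4 + ζ ^ 3 + ζ ^ 2 + ζ + 1 = 0) :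
    N10 (ζ ^ 2) z w - N10 ζ z w = -(36 * sqrt5 ζ * gF (z ^ 5) (w ^ 5)) := by
  simp only [fF, HF, TF, hF, tF, gF, XX, YY, X2, Y2, N10, M10, n10, m10, sqrt5]
  linear_combination (ζ*(-36*w^10 + 396*z^5*w^5 + 36*z^10) + ζ^2*(36*w^10 - 396*z^5*w^5 - 36*z^10)) * hζ

theorem one_add_two_g (ζ : K) (hζ : ζ ^ 4 + ζ ^ 3 + ζ ^ 2 + ζ + 1 = 0) :
    1 + 2 * (ζ ^ 2 + ζ ^ 3) = -sqrt5 ζ := by
  simp only [sqrt5]
  linear_combination ((1)) * hζ

theorem lambda_det (ζ : K) (hζ : ζ ^ 4 + ζ ^ 3 + ζ ^ 2 + ζ + 1 = 0) :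
    (18 + 11 * (ζ ^ 2 + ζ ^ 3)) ^ 2 + (1 + 2 * (ζ ^ 2 + ζ ^ 3)) ^ 2 = 25 * (18 + 11 * (ζ ^ 2 + ζ ^ 3)) := by
  linear_combination ((-125) + ζ*(125) + ζ^2*(125)) * hζ

theorem lambda_unit (ζ : K) (hζ : ζ ^ 4 + ζ ^ 3 + ζ ^ 2 + ζ + 1 = 0) :
    (18 + 11 * (ζ ^ 2 + ζ ^ 3)) * (7 - 11 * (ζ ^ 2 + ζ ^ 3)) = 5 := by
  linear_combination ((121) + ζ*(-121) + ζ^2*(-121)) * hζ

theorem XX_smul (c z w : K) : XX (c * z) (c * w) = c ^ 10 * XX z w := by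
  simp only [XX]
  ring

theorem YY_smul (c z w : K) : YY (c * z) (c * w) = c ^ 15 * YY z w := by
  simp only [YY]
  ring

theorem X2_smul (c z w : K) : X2 (c * z) (c * w) = c ^ 10 * X2 z w := by
  simp only [X2]
  ring

theorem Y2_smul (c z w : K) : Y2 (c * z) (c * w) = c ^ 15 * Y2 z w := by
  simp only [Y2]
  ring

theorem HF_smul (c z w : K) : HF (c * z) (c * w) = c ^ 20 * HF z w := by
  simp only [HF, hF]
  ring

theorem TF_smul (c z w : K) : TF (c * z) (c * w) = c ^ 30 * TF z w := by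
  simp only [TF, tF]
  ring

theorem fF_smul (c z w : K) : fF (c * z) (c * w) = c ^ 12 * fF z w := by
  simp only [fF, gF]
  ring

theorem N10_smul (c ζ z w : K) : N10 ζ (c * z) (c * w) = c ^ 10 * N10 ζ z w := by
  simp only [N10, n10]
  ring

theorem M10_smul (c ζ z w : K) : M10 ζ (c * z) (c * w) = c ^ 15 * M10 ζ z w := by
  simp only [M10, m10]
  ring

theorem wf1_smul (c z w : K) : wf1 (c * z) (c * w) = c ^ 11 * wf1 z w := by
  simp only [wf1]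
  ring

theorem wf2_smul (c z w : K) : wf2 (c * z) (c * w) = c ^ 11 * wf2 z w := by
  simp only [wf2]
  ring

end Fermat.Agent.S52.Klein
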