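import Fermat.Agent.S52.Klein.Torsion
import Fermat.Agent.S52.Klein.IdD
import Fermat.Agent.S52.Klein.IdF

/-!
# P-ELL / S52, package K2: scalars, the substitution `S`, and the `λ`-invariant (helper60)

* scalars `c` with `c ^ 10 = 1`: `L_{c v} = ± L_v` according to `c ^ 5 = ± 1`;
* the substitution `S v = (Sz, Sw) / √5`: `Q(S v) = -P(v)`, `P(S v) = Q(v)`,
  `L_{S v}(a, b) = L_v(b, -a)`;
* the `λ`-invariant: `Q(v) = Q(v')` on the same curve forces `z'⁵ w⁵ = z⁵ w'⁵`, hence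
  `v' = c T^m v` for a scalar `c` and some `m < 5`.
-/

set_option autoImplicit false

namespace Fermat.Agent.S52.Klein

open WeierstrassCurve WeierstrassCurve.Affine
open Fermat.Agent.S52.Klein.ShortCurve

variable {K : Type*} [Field K] {A B z w : K}

/-! ### congruence in the parameter -/

theorem pP_congr_param {z' w' : K} [CharZero K] (h : IsParam A B z w) (h' : IsParam A B z' w')
    (ez : z = z') (ew : w = w') : pP h = pP h' := by
  subst ez ew
  rfl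

theorem pQ_congr_param {z' w' : K} [CharZero K] (h : IsParam A B z w) (h' : IsParam A B z' w')
    {ζ : K} (hζ : IsZeta5 ζ) (ez : z = z') (ew : w = w') : pQ h hζ = pQ h' hζ := by
  subst ez ew
  rfl

/-! ### scalars -/

theorem IsParam.smul (h : IsParam A B z w) {c : K} (hc : c ^ 10 = 1) :
    IsParam A B (c * z) (c * w) where
  hA := by
    rw [HF_smul, show c ^ 20 = (c ^ 10) ^ 2 by ring, hc, one_pow, one_mul]
    exact h.hA
  hB := by
    rw [TF_smul, show c ^ 30 = (c ^ 10) ^ 3 by ring, hc, one_pow, one_mul]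
    exact h.hB
  hf := by
    rw [fF_smul]
    have hc0 : c ≠ 0 := by
      rintro rfl
      simp at hc
    exact mul_ne_zero (pow_ne_zero 12 hc0) h.hf

theorem pow_ten_of_pow_five {c : K} (hc : c ^ 5 = 1 ∨ c ^ 5 = -1) : c ^ 10 = 1 := by
  have : c ^ 10 = (c ^ 5) ^ 2 := by ring
  rcases hc with h | h <;> rw [this, h] <;> ring

section Scalar

variable [CharZero K]

theorem pP_smul_pos (h : IsParam A B z w) {c : K} (hc : c ^ 5 = 1) :
    pP (h.smul (pow_ten_of_pow_five (Or.inl hc))) = pP h := by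
  unfold pP
  apply some_eq_some
  · rw [XX_smul, show c ^ 10 = (c ^ 5) ^ 2 by ring, hc, one_pow, one_mul]
  · rw [YY_smul, show c ^ 15 = (c ^ 5) ^ 3 by ring, hc, one_pow, one_mul]

theorem pQ_smul_pos (h : IsParam A B z w) {ζ : K} (hζ : IsZeta5 ζ) {c : K} (hc : c ^ 5 = 1) :
    pQ (h.smul (pow_ten_of_pow_five (Or.inl hc))) hζ = pQ h hζ := by
  unfold pQ
  apply some_eq_some
  · rw [N10_smul, show c ^ 10 = (c ^ 5) ^ 2 by ring, hc, one_pow, one_mul]
  · rw [M10_smul, show c ^ 15 = (c ^ 5) ^ 3 by ring, hc, one_pow, one_mul]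

theorem pP_smul_neg (h : IsParam A B z w) {c : K} (hc : c ^ 5 = -1) :
    pP (h.smul (pow_ten_of_pow_five (Or.inr hc))) = -pP h := by
  obtain ⟨h'', e'⟩ := neg_some_eq (h.nonsingular h.P_equation)
  unfold pP
  rw [e']
  apply some_eq_some
  · rw [XX_smul, show c ^ 10 = (c ^ 5) ^ 2 by ring, hc]
    ring
  · rw [YY_smul, show c ^ 15 = (c ^ 5) ^ 3 by ring, hc]
    ring

theorem pQ_smul_neg (h : IsParam A B z w) {ζ : K} (hζ : IsZeta5 ζ) {c : K} (hc : c ^ 5 = -1) :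
    pQ (h.smul (pow_ten_of_pow_five (Or.inr hc))) hζ = -pQ h hζ := by
  obtain ⟨h'', e'⟩ := neg_some_eq (h.nonsingular (h.Q_equation hζ))
  unfold pQ
  rw [e']
  apply some_eq_some
  · rw [N10_smul, show c ^ 10 = (c ^ 5) ^ 2 by ring, hc]
    ring
  · rw [M10_smul, show c ^ 15 = (c ^ 5) ^ 3 by ring, hc]
    ring

variable [DecidableEq K]

theorem kL_smul_pos (h : IsParam A B z w) {ζ : K} (hζ : IsZeta5 ζ) {c : K} (hc : c ^ 5 = 1)
    (u : ZMod 5 × ZMod 5) :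
    kL (h.smul (pow_ten_of_pow_five (Or.inl hc))) hζ u = kL h hζ u := by
  obtain ⟨a, b⟩ := u
  obtain ⟨m, rfl⟩ := ZMod.intCast_surjective a
  obtain ⟨n, rfl⟩ := ZMod.intCast_surjective b
  rw [kL_intCast, kL_intCast, pP_smul_pos h hc, pQ_smul_pos h hζ hc]

theorem kL_smul_neg (h : IsParam A B z w) {ζ : K} (hζ : IsZeta5 ζ) {c : K} (hc : c ^ 5 = -1)
    (u : ZMod 5 × ZMod 5) :
    kL (h.smul (pow_ten_of_pow_five (Or.inr hc))) hζ u = kL h hζ (-u) := by
  obtain ⟨a, b⟩ := u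
  obtain ⟨m, rfl⟩ := ZMod.intCast_surjective a
  obtain ⟨n, rfl⟩ := ZMod.intCast_surjective b
  have e : (-((m : ZMod 5), (n : ZMod 5)) : ZMod 5 × ZMod 5) =
      (((-m : ℤ) : ZMod 5), ((-n : ℤ) : ZMod 5)) := by
    ext <;> simp
  rw [e, kL_intCast, kL_intCast, pP_smul_neg h hc, pQ_smul_neg h hζ hc, smul_neg, smul_neg,
    neg_smul, neg_smul]

end Scalar

/-! ### the substitution `S` -/

/-- first coordinate of `S v`. -/
def SzN (ζ z w : K) : K := (sqrt5 ζ)⁻¹ * Sz ζ z w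

/-- second coordinate of `S v`. -/
def SwN (ζ z w : K) : K := (sqrt5 ζ)⁻¹ * Sw ζ z w

section S

variable [CharZero K] {ζ : K}

theorem IsZeta5.sqrt5_ne_zero (hζ : IsZeta5 ζ) : sqrt5 ζ ≠ 0 := by
  intro h
  have := sqrt5_sq ζ hζ
  rw [h] at this
  norm_num at this

omit [CharZero K] in
theorem IsZeta5.inv_sqrt5_sq (hζ : IsZeta5 ζ) : ((sqrt5 ζ)⁻¹) ^ 2 = 5⁻¹ := by
  rw [inv_pow, sqrt5_sq ζ hζ]

omit [CharZero K] in
theorem Sz_smul (c ζ z w : K) : Sz ζ (c * z) (c * w) = c * Sz ζ z w := by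
  unfold Sz
  ring

omit [CharZero K] in
theorem Sw_smul (c ζ z w : K) : Sw ζ (c * z) (c * w) = c * Sw ζ z w := by
  unfold Sw
  ring

theorem SzN_SzN (hζ : IsZeta5 ζ) (z w : K) : SzN ζ (SzN ζ z w) (SwN ζ z w) = -z := by
  unfold SzN SwN
  rw [Sz_smul, Sz_Sz z w ζ hζ, ← mul_assoc, ← pow_two, hζ.inv_sqrt5_sq]
  field_simp

theorem SwN_SzN (hζ : IsZeta5 ζ) (z w : K) : SwN ζ (SzN ζ z w) (SwN ζ z w) = -w := by
  unfold SzN SwN
  rw [Sw_smul, Sw_Sz z w ζ hζ, ← mul_assoc, ← pow_two, hζ.inv_sqrt5_sq]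
  field_simp

theorem HF_SN (hζ : IsZeta5 ζ) (z w : K) : HF (SzN ζ z w) (SwN ζ z w) = HF z w := by
  unfold SzN SwN
  rw [HF_smul, HF_S z w ζ hζ, show ((sqrt5 ζ)⁻¹) ^ 20 = (((sqrt5 ζ)⁻¹) ^ 2) ^ 10 by ring,
    hζ.inv_sqrt5_sq]
  field_simp

theorem fF_SN (hζ : IsZeta5 ζ) (z w : K) : fF (SzN ζ z w) (SwN ζ z w) = fF z w := by
  unfold SzN SwN
  rw [fF_smul, fF_S z w ζ hζ, show ((sqrt5 ζ)⁻¹) ^ 12 = (((sqrt5 ζ)⁻¹) ^ 2) ^ 6 by ring,
    hζ.inv_sqrt5_sq]
  field_simp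

theorem N10_SN (hζ : IsZeta5 ζ) (z w : K) : N10 ζ (SzN ζ z w) (SwN ζ z w) = 5 * XX z w := by
  unfold SzN SwN
  rw [N10_smul, N10_S z w ζ hζ, show ((sqrt5 ζ)⁻¹) ^ 10 = (((sqrt5 ζ)⁻¹) ^ 2) ^ 5 by ring,
    hζ.inv_sqrt5_sq]
  field_simp

theorem M10_SN (hζ : IsZeta5 ζ) (z w : K) : M10 ζ (SzN ζ z w) (SwN ζ z w) = -(5 * YY z w) := by
  unfold SzN SwN
  have hs := hζ.sqrt5_ne_zero
  rw [M10_smul, M10_S z w ζ hζ,
    show ((sqrt5 ζ)⁻¹) ^ 15 = (((sqrt5 ζ)⁻¹) ^ 2) ^ 7 * (sqrt5 ζ)⁻¹ by ring, hζ.inv_sqrt5_sq]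
  field_simp

theorem TF_SN (hζ : IsZeta5 ζ) (z w : K) : TF (SzN ζ z w) (SwN ζ z w) = TF z w := by
  have h1 := Q_on_curve (SzN ζ z w) (SwN ζ z w) ζ hζ
  rw [N10_SN hζ, M10_SN hζ, HF_SN hζ] at h1
  have h2 := P_on_curve z w
  have h54 : (6750 : K) ≠ 0 := by norm_num
  have : (6750 : K) * (TF (SzN ζ z w) (SwN ζ z w) - TF z w) = 0 := by
    linear_combination -h1 + 125 * h2
  rcases mul_eq_zero.mp this with h | h
  · exact absurd h h54
  · exact sub_eq_zero.mp h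

/-- `S v` is again a Klein parameter of the same curve. -/
theorem IsParam.S (h : IsParam A B z w) (hζ : IsZeta5 ζ) :
    IsParam A B (SzN ζ z w) (SwN ζ z w) where
  hA := by rw [HF_SN hζ]; exact h.hA
  hB := by rw [TF_SN hζ]; exact h.hB
  hf := by rw [fF_SN hζ]; exact h.hf

/-- `Q(S v) = -P(v)`. -/
theorem pQ_S (h : IsParam A B z w) (hζ : IsZeta5 ζ) : pQ (h.S hζ) hζ = -pP h := by
  obtain ⟨h'', e'⟩ := neg_some_eq (h.nonsingular h.P_equation)
  unfold pQ pP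
  rw [e']
  apply some_eq_some
  · rw [N10_SN hζ]
    field_simp
  · rw [M10_SN hζ]
    field_simp

omit [CharZero K] in
theorem IsParam.neg (h : IsParam A B z w) : IsParam A B (-z) (-w) := by
  have := h.smul (c := -1) (by norm_num)
  simpa using this

theorem pQ_neg_param (h : IsParam A B z w) (hζ : IsZeta5 ζ) : pQ h.neg hζ = -pQ h hζ := by
  have := pQ_smul_neg h hζ (c := -1) (by norm_num)
  rw [← this]
  exact pQ_congr_param _ _ hζ (by ring) (by ring)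

/-- `P(S v) = Q(v)`. -/
theorem pP_S (h : IsParam A B z w) (hζ : IsZeta5 ζ) : pP (h.S hζ) = pQ h hζ := by
  have h1 := pQ_S (h.S hζ) hζ
  have h2 : pQ ((h.S hζ).S hζ) hζ = pQ h.neg hζ :=
    pQ_congr_param _ _ hζ (SzN_SzN hζ z w) (SwN_SzN hζ z w)
  rw [h2, pQ_neg_param h hζ] at h1
  exact (neg_injective h1).symm

variable [DecidableEq K]

/-- `L_{S v}(a, b) = L_v(b, -a)`. -/
theorem kL_S (h : IsParam A B z w) (hζ : IsZeta5 ζ) (a b : ZMod 5) :
    kL (h.S hζ) hζ (a, b) = kL h hζ (b, -a) := by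
  obtain ⟨m, rfl⟩ := ZMod.intCast_surjective a
  obtain ⟨n, rfl⟩ := ZMod.intCast_surjective b
  rw [← Int.cast_neg, kL_intCast, kL_intCast, pQ_S h hζ, pP_S h hζ, smul_neg, neg_smul]
  abel

end S

/-! ### the `λ`-invariant -/

section Lambda

variable [CharZero K] [DecidableEq K] {ζ : K} {z' w' : K}

omit [CharZero K] [DecidableEq K] in
theorem IsParam.z_ne_zero (h : IsParam A B z w) : z ≠ 0 := by
  rintro rfl
  exact h.hf (by simp [fF])

omit [CharZero K] [DecidableEq K] in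
theorem IsParam.w_ne_zero (h : IsParam A B z w) : w ≠ 0 := by
  rintro rfl
  exact h.hf (by simp [fF])

omit [CharZero K] [DecidableEq K] in
theorem IsParam.gF_ne_zero (h : IsParam A B z w) : gF (z ^ 5) (w ^ 5) ≠ 0 := by
  intro h0
  exact h.hf (by simp [fF, h0])

/-- **the `λ`-invariant**: the point `Q(v)` determines `(z / w) ^ 5`. -/
theorem pow_five_ratio_of_pQ_eq (h : IsParam A B z w) (h' : IsParam A B z' w')
    (hζ : IsZeta5 ζ) (e : pQ h hζ = pQ h' hζ) : z' ^ 5 * w ^ 5 = z ^ 5 * w' ^ 5 := by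
  -- equality of the coordinates of `Q` and of `2Q`
  have e2 : pQ h hζ.sq = pQ h' hζ.sq := by
    rw [← pQ_add_pQ h hζ, ← pQ_add_pQ h' hζ, e]
  have h5 : (5 : K) ≠ 0 := by norm_num
  unfold pQ at e e2
  rw [Point.some.injEq] at e e2
  have eN : N10 ζ z w = N10 ζ z' w' := by
    have := e.1
    field_simp at this
    exact this
  have eM : M10 ζ z w = M10 ζ z' w' := by
    have := e.2
    field_simp at this
    exact this
  have eN2 : N10 (ζ ^ 2) z w = N10 (ζ ^ 2) z' w' := by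
    have := e2.1
    field_simp at this
    exact this
  have l1 := lambda_Q z w ζ hζ
  have l2 := lambda_Q z' w' ζ hζ
  rw [← eN, ← eM, ← eN2] at l2
  set L := (N10 (ζ ^ 2) z w - N10 ζ z w) ^ 3 with hL
  set R := 20 * M10 ζ z w ^ 2 with hR
  set α := 1 + 2 * (ζ ^ 2 + ζ ^ 3) with hα
  set β := 18 + 11 * (ζ ^ 2 + ζ ^ 3) with hβ
  have hL0 : L ≠ 0 := by
    rw [hL, N20_sub_N10 z w ζ hζ]
    refine pow_ne_zero 3 (neg_ne_zero.mpr (mul_ne_zero (mul_ne_zero (by norm_num) ?_) ?_))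
    · exact hζ.sqrt5_ne_zero
    · exact h.gF_ne_zero
  have hdet : α ^ 2 + β ^ 2 ≠ 0 := by
    have h1 := lambda_det ζ hζ
    have h2 := lambda_unit ζ hζ
    have hβ0 : β ≠ 0 := by
      intro h0
      rw [← hβ, h0, zero_mul] at h2
      exact h5 h2.symm
    have : α ^ 2 + β ^ 2 = 25 * β := by rw [hα, hβ]; linear_combination h1
    rw [this]
    exact mul_ne_zero (by norm_num) hβ0
  have key : L * ((α ^ 2 + β ^ 2) * (z' ^ 5 * w ^ 5 - z ^ 5 * w' ^ 5)) = 0 := by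
    linear_combination (β * w' ^ 5 + α * z' ^ 5) * l1 - (β * w ^ 5 + α * z ^ 5) * l2
  rcases mul_eq_zero.mp key with h0 | h0
  · exact absurd h0 hL0
  · rcases mul_eq_zero.mp h0 with h1 | h1
    · exact absurd h1 hdet
    · exact sub_eq_zero.mp h1

omit [DecidableEq K] in
/-- a root of the fifth cyclotomic polynomial is a primitive fifth root of unity. -/
theorem IsZeta5.isPrimitiveRoot (hζ : IsZeta5 ζ) : IsPrimitiveRoot ζ 5 := by
  have : Fact (Nat.Prime 5) := ⟨by norm_num⟩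
  rw [IsPrimitiveRoot.iff_orderOf]
  refine orderOf_eq_prime hζ.pow_five ?_
  rintro rfl
  unfold IsZeta5 at hζ
  norm_num at hζ

/-- two Klein parameters of the same curve with the same `Q` differ by a scalar and a power of
the substitution `T : (z, w) ↦ (ζ z, w)`. -/
theorem exists_smul_T_of_pQ_eq (h : IsParam A B z w) (h' : IsParam A B z' w')
    (hζ : IsZeta5 ζ) (e : pQ h hζ = pQ h' hζ) :
    ∃ (c : K) (m : ℕ), m < 5 ∧ z' = c * (ζ ^ m * z) ∧ w' = c * w := by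
  have hr := pow_five_ratio_of_pQ_eq h h' hζ e
  have hz := h.z_ne_zero
  have hw := h.w_ne_zero
  have hz' := h'.z_ne_zero
  have hw' := h'.w_ne_zero
  have h1 : (z' * w / (z * w')) ^ 5 = 1 := by
    rw [div_pow, mul_pow, mul_pow, hr]
    exact div_self (mul_ne_zero (pow_ne_zero 5 hz) (pow_ne_zero 5 hw'))
  obtain ⟨m, hm, hm'⟩ := hζ.isPrimitiveRoot.eq_pow_of_pow_eq_one h1
  refine ⟨w' / w, m, hm, ?_, ?_⟩
  · rw [hm']
    field_simp
  · field_simp

end Lambda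

end Fermat.Agent.S52.Klein
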