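import Fermat.Agent.S52.Klein.Torsion

/-!
# P-ELL / S52, package K2: the Galois action on the level-5 structure of Klein's curve (helper60)

* `exists_conjHom`: for a ring endomorphism `σ` of a field `K` fixing `A` and `B`, coordinatewise
  conjugation is an additive endomorphism of the points of `y² = x³ + A x + B`.
* `IsParam.map`, `pP_map`, `pQ_map`: the conjugates of the Klein points are the Klein points of
  the conjugate parameter (and conjugate `ζ`).
* `pQ_pow`: `Q_{ζ^k} = k Q_ζ` for `k = 1, 2, 3, 4`.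
* `conj_kL`: `σ (L_v (a, b)) = L_{σ v} (k a, b)` when `σ ζ = ζ ^ k`.
-/

set_option autoImplicit false

namespace Fermat.Agent.S52.Klein

open WeierstrassCurve WeierstrassCurve.Affine
open Fermat.Agent.S52.Klein.ShortCurve

variable {K : Type*} [Field K]

section ConjHom

variable [DecidableEq K]

/-- an auxiliary form: conjugation on a base-changed curve, transported along an equality. -/
theorem exists_conjHom_aux {R : Type*} [CommRing R] [Algebra R K] (E₀ : Affine R)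
    (σ : K →ₐ[R] K) (E : Affine K) (hE : (E₀⁄K) = E) :
    ∃ c : E.Point →+ E.Point, ∀ (x y : K) (h : E.Nonsingular x y),
      ∃ h' : E.Nonsingular (σ x) (σ y), c (Point.some x y h) = Point.some (σ x) (σ y) h' := by
  subst hE
  exact ⟨Point.map (W' := E₀) σ, fun x y h => ⟨_, Point.map_some (W' := E₀) σ h⟩⟩

/-- **coordinatewise conjugation** is an additive endomorphism of the group of points of
`y² = x³ + A x + B`, for every ring endomorphism `σ` of `K` fixing `A` and `B`. -/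
theorem exists_conjHom {A B : K} (σ : K →+* K) (hA : σ A = A) (hB : σ B = B) :
    ∃ c : (shortW A B).Point →+ (shortW A B).Point, ∀ (x y : K)
      (h : (shortW A B).Nonsingular x y),
      ∃ h' : (shortW A B).Nonsingular (σ x) (σ y),
        c (Point.some x y h) = Point.some (σ x) (σ y) h' := by
  let R : Subring K := RingHom.eqLocus σ (RingHom.id K)
  have hmem : ∀ x : K, x ∈ R ↔ σ x = x := fun x => Iff.rfl
  let σR : K →ₐ[R] K := { σ with commutes' := fun r => r.2 }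
  let E₀ : Affine R := ⟨0, 0, 0, ⟨A, (hmem A).mpr hA⟩, ⟨B, (hmem B).mpr hB⟩⟩
  have hE : (E₀⁄K) = shortW A B := by
    ext <;> simp [E₀, WeierstrassCurve.baseChange] <;> rfl
  obtain ⟨c, hc⟩ := exists_conjHom_aux E₀ σR (shortW A B) hE
  exact ⟨c, fun x y h => hc x y h⟩

end ConjHom

section Param

variable {A B z w : K}

theorem IsZeta5.map {ζ : K} (hζ : IsZeta5 ζ) (σ : K →+* K) : IsZeta5 (σ ζ) := by
  unfold IsZeta5 at hζ ⊢
  have := congrArg σ hζ
  simpa using this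

theorem HF_map (σ : K →+* K) (z w : K) : HF (σ z) (σ w) = σ (HF z w) := by
  simp [HF, hF, map_ofNat]

theorem TF_map (σ : K →+* K) (z w : K) : TF (σ z) (σ w) = σ (TF z w) := by
  simp [TF, tF, map_ofNat]

theorem fF_map (σ : K →+* K) (z w : K) : fF (σ z) (σ w) = σ (fF z w) := by
  simp [fF, gF, map_ofNat]

theorem XX_map (σ : K →+* K) (z w : K) : XX (σ z) (σ w) = σ (XX z w) := by
  simp [XX, map_ofNat]

theorem YY_map (σ : K →+* K) (z w : K) : YY (σ z) (σ w) = σ (YY z w) := by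
  simp [YY, map_ofNat]

theorem N10_map (σ : K →+* K) (ζ z w : K) : N10 (σ ζ) (σ z) (σ w) = σ (N10 ζ z w) := by
  simp [N10, n10, map_ofNat]

theorem M10_map (σ : K →+* K) (ζ z w : K) : M10 (σ ζ) (σ z) (σ w) = σ (M10 ζ z w) := by
  simp [M10, m10, map_ofNat]

variable [CharZero K]

omit [CharZero K] in
/-- the conjugate of a Klein parameter is a Klein parameter of the conjugate (= same) curve. -/
theorem IsParam.map (h : IsParam A B z w) (σ : K →+* K) (hA : σ A = A) (hB : σ B = B) :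
    IsParam A B (σ z) (σ w) where
  hA := by rw [HF_map, ← hA, ← h.hA, map_mul, map_ofNat]
  hB := by rw [TF_map, ← hB, ← h.hB, map_mul, map_ofNat]
  hf := by
    rw [fF_map]
    exact (map_ne_zero σ).mpr h.hf

variable [DecidableEq K]

theorem conj_pP (h : IsParam A B z w) (σ : K →+* K) (hA : σ A = A) (hB : σ B = B)
    (c : (shortW A B).Point →+ (shortW A B).Point)
    (hc : ∀ (x y : K) (h : (shortW A B).Nonsingular x y),
      ∃ h' : (shortW A B).Nonsingular (σ x) (σ y),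
        c (Point.some x y h) = Point.some (σ x) (σ y) h') :
    c (pP h) = pP (h.map σ hA hB) := by
  obtain ⟨h', e⟩ := hc _ _ (h.nonsingular h.P_equation)
  rw [pP, e, pP]
  exact some_eq_some (XX_map σ z w).symm (YY_map σ z w).symm

theorem conj_pQ (h : IsParam A B z w) {ζ : K} (hζ : IsZeta5 ζ) (σ : K →+* K) (hA : σ A = A)
    (hB : σ B = B) (c : (shortW A B).Point →+ (shortW A B).Point)
    (hc : ∀ (x y : K) (h : (shortW A B).Nonsingular x y),
      ∃ h' : (shortW A B).Nonsingular (σ x) (σ y),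
        c (Point.some x y h) = Point.some (σ x) (σ y) h') :
    c (pQ h hζ) = pQ (h.map σ hA hB) (hζ.map σ) := by
  obtain ⟨h', e⟩ := hc _ _ (h.nonsingular (h.Q_equation hζ))
  rw [pQ, e, pQ]
  apply some_eq_some
  · rw [N10_map, map_div₀, map_ofNat]
  · rw [M10_map, map_div₀, map_ofNat]

/-- `Q_{ζ²} = 2 Q_ζ`. -/
theorem pQ_sq (h : IsParam A B z w) {ζ : K} (hζ : IsZeta5 ζ) :
    pQ h hζ.sq = (2 : ℤ) • pQ h hζ := by
  rw [two_zsmul, pQ_add_pQ]

/-- `Q_{ζ³} = 3 Q_ζ`. -/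
theorem pQ_cube (h : IsParam A B z w) {ζ : K} (hζ : IsZeta5 ζ) (hζ3 : IsZeta5 (ζ ^ 3)) :
    pQ h hζ3 = (3 : ℤ) • pQ h hζ := by
  -- `ζ³ = (ζ⁴)²`
  have e : (ζ ^ 4) ^ 2 = ζ ^ 3 := by
    rw [← pow_mul]
    have : ζ ^ (4 * 2) = ζ ^ 5 * ζ ^ 3 := by ring
    rw [this, hζ.pow_five, one_mul]
  rw [pQ_congr h hζ3 hζ.pow_four.sq e.symm, pQ_sq h hζ.pow_four, pQ_pow_four h hζ]
  have h5 := five_zsmul_pQ h hζ
  have : (2 : ℤ) • -pQ h hζ = (3 : ℤ) • pQ h hζ - (5 : ℤ) • pQ h hζ := by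
    rw [smul_neg, ← sub_smul]
    norm_num
  rw [this, h5, sub_zero]

/-- `Q_{ζ^k} = k Q_ζ` for `k = 1, 2, 3, 4`. -/
theorem pQ_pow (h : IsParam A B z w) {ζ : K} (hζ : IsZeta5 ζ) {k : ℕ} (hk : k ∈ Finset.Icc 1 4)
    (hζk : IsZeta5 (ζ ^ k)) : pQ h hζk = (k : ℤ) • pQ h hζ := by
  rw [Finset.mem_Icc] at hk
  obtain ⟨h1, h4⟩ := hk
  interval_cases k
  · rw [Nat.cast_one, one_zsmul]
    exact pQ_congr h _ _ (pow_one ζ)
  · exact pQ_sq h hζ
  · exact pQ_cube h hζ hζk
  · rw [pQ_congr h hζk hζ.pow_four rfl, pQ_pow_four h hζ]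
    have h5 := five_zsmul_pQ h hζ
    have : -pQ h hζ = ((4 : ℕ) : ℤ) • pQ h hζ - (5 : ℤ) • pQ h hζ := by
      rw [← sub_smul]
      norm_num
    rw [this, h5, sub_zero]

/-- **Galois equivariance**: `σ (L_v (a, b)) = L_{σ v} (k a, b)` when `σ ζ = ζ ^ k`. -/
theorem conj_kL (h : IsParam A B z w) {ζ : K} (hζ : IsZeta5 ζ) (σ : K →+* K) (hA : σ A = A)
    (hB : σ B = B) (c : (shortW A B).Point →+ (shortW A B).Point)
    (hc : ∀ (x y : K) (h : (shortW A B).Nonsingular x y),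
      ∃ h' : (shortW A B).Nonsingular (σ x) (σ y),
        c (Point.some x y h) = Point.some (σ x) (σ y) h')
    {k : ℕ} (hk : k ∈ Finset.Icc 1 4) (hσζ : σ ζ = ζ ^ k) (a b : ZMod 5) :
    c (kL h hζ (a, b)) = kL (h.map σ hA hB) hζ ((k : ZMod 5) * a, b) := by
  obtain ⟨m, rfl⟩ := ZMod.intCast_surjective a
  obtain ⟨n, rfl⟩ := ZMod.intCast_surjective b
  have hζk : IsZeta5 (ζ ^ k) := hσζ ▸ hζ.map σ
  have e1 : ((k : ZMod 5) * (m : ZMod 5)) = (((k : ℤ) * m : ℤ) : ZMod 5) := by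
    push_cast
    rfl
  rw [e1, kL_intCast, kL_intCast, map_add, map_zsmul, map_zsmul, conj_pP h σ hA hB c hc,
    conj_pQ h hζ σ hA hB c hc, pQ_congr (h.map σ hA hB) (hζ.map σ) hζk hσζ,
    pQ_pow (h.map σ hA hB) hζ hk hζk, mul_zsmul, smul_comm]

end Param

end Fermat.Agent.S52.Klein
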