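import Fermat.Agent.S52.Klein.Galois
import Fermat.Agent.S52.TorsionGlue

/-!
# P-ELL / S52: the Galois action on the level structure in the `IsConj` vocabulary (helper60)

Bridge between `Klein/Galois.lean` (conjugation as an additive endomorphism) and
`TorsionGlue.IsConj` (coordinatewise conjugation) of helper28.
-/

set_option autoImplicit false

namespace Fermat.Agent.S52.Klein

open WeierstrassCurve WeierstrassCurve.Affine
open Fermat.Agent.S52.Klein.ShortCurve Fermat.Agent.S52.TorsionGlue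

variable {K : Type*} [Field K] {A B z w : K}

/-- a conjugation hom realises `IsConj`. -/
theorem isConj_of_conjHom [DecidableEq K] (σ : K →+* K) (c : (shortW A B).Point →+ (shortW A B).Point)
    (hc : ∀ (x y : K) (h : (shortW A B).Nonsingular x y),
      ∃ h' : (shortW A B).Nonsingular (σ x) (σ y),
        c (Point.some x y h) = Point.some (σ x) (σ y) h') (P : (shortW A B).Point) :
    IsConj (⇑σ) P (c P) := by
  rcases P with _ | ⟨x, y, h⟩
  · have : c (Point.zero : (shortW A B).Point) = 0 := map_zero c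
    rw [this]
    trivial
  · obtain ⟨h', e⟩ := hc x y h
    rw [e]
    exact ⟨rfl, rfl⟩

variable [CharZero K]

theorem isConj_pP (h : IsParam A B z w) (σ : K →+* K) (hA : σ A = A) (hB : σ B = B) :
    IsConj (⇑σ) (pP h) (pP (h.map σ hA hB)) :=
  ⟨XX_map σ z w, YY_map σ z w⟩

theorem isConj_pQ (h : IsParam A B z w) {ζ : K} (hζ : IsZeta5 ζ) (σ : K →+* K) (hA : σ A = A)
    (hB : σ B = B) : IsConj (⇑σ) (pQ h hζ) (pQ (h.map σ hA hB) (hζ.map σ)) := by
  refine ⟨?_, ?_⟩
  · rw [N10_map, map_div₀, map_ofNat]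
  · rw [M10_map, map_div₀, map_ofNat]

variable [DecidableEq K]

/-- **Galois equivariance of the level structure**, coordinatewise form:
`σ (L_v (a, b)) = L_{σ v} (k a, b)` when `σ ζ = ζ ^ k`. -/
theorem isConj_kL (h : IsParam A B z w) {ζ : K} (hζ : IsZeta5 ζ) (σ : K →+* K) (hA : σ A = A)
    (hB : σ B = B) {k : ℕ} (hk : k ∈ Finset.Icc 1 4) (hσζ : σ ζ = ζ ^ k) (a b : ZMod 5) :
    IsConj (⇑σ) (kL h hζ (a, b)) (kL (h.map σ hA hB) hζ ((k : ZMod 5) * a, b)) := by
  obtain ⟨c, hc⟩ := exists_conjHom (A := A) (B := B) σ hA hB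
  rw [← conj_kL h hζ σ hA hB c hc hk hσζ a b]
  exact isConj_of_conjHom σ c hc _

end Fermat.Agent.S52.Klein
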