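import Fermat.Agent.S52.Klein.Equivariance
import Fermat.Agent.S52.Klein.ConjGlue
import Fermat.Agent.S52.Klein.IdS
import Fermat.Agent.S52.Family

/-!
# P-ELL / S52, package A2 part 2: the Galois action on a Klein parameter (helper60)

For a Klein parameter `v₀ = (z₀, w₀)` of `y² = x³ + A x + B` (`A B ≠ 0`) and a field endomorphism
`σ` fixing `A` and `B`, the conjugate `σ v₀` is obtained from `v₀` by a *move*: a matrix in the
binary icosahedral group (generated by `T = diag(ζ, 1)`, `S` and the scalars in `μ₁₀`), which is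
`KleinAdm` and acts on the level structure `kL` of **every** parameter by a fixed matrix of
determinant `1` over `ZMod 5`.  Combined with `isConj_kL` this gives the action of `σ` on the
level structure: a matrix of determinant `k` where `σ ζ = ζ ^ k`.
-/

set_option autoImplicit false

namespace Fermat.Agent.S52.GaloisParam

open Fermat.Agent.S52.Klein Fermat.Agent.S52.Param Fermat.Agent.S52.Family
open Fermat.Agent.S52.TorsionGlue

variable {K : Type*} [Field K]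

/-! ### bridges between the two presentations of Klein's forms -/

theorem kH_eq_HF (z w : K) : kH z w = HF z w := by
  unfold HF hF kH
  ring

theorem kT_eq_TF (z w : K) : kT z w = TF z w := by
  unfold TF tF kT
  ring

theorem kf_eq_fF (z w : K) : kf z w = fF z w := by
  unfold fF gF kf
  ring

theorem cov1_eq_wf1 (z w : K) : cov1 z w = wf1 z w := by
  unfold wf1 cov1
  ring

theorem cov2_eq_wf2 (z w : K) : cov2 z w = wf2 z w := by
  unfold wf2 cov2
  ring

/-- `KleinAdm` from identities on the names of `Klein/Forms.lean`. -/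
theorem kleinAdm_of_forms {a b c d ε : K}
    (hH : ∀ z w : K, HF (a * z + b * w) (c * z + d * w) = HF z w)
    (hT : ∀ z w : K, TF (a * z + b * w) (c * z + d * w) = TF z w)
    (hf : ∀ z w : K, fF (a * z + b * w) (c * z + d * w) = ε * fF z w)
    (h1 : ∀ z w : K, wf1 (a * z + b * w) (c * z + d * w) = a * wf1 z w + b * wf2 z w)
    (h2 : ∀ z w : K, wf2 (a * z + b * w) (c * z + d * w) = c * wf1 z w + d * wf2 z w) :
    KleinAdm a b c d where
  kH_eq z w := by rw [kH_eq_HF, kH_eq_HF, hH]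
  kT_eq z w := by rw [kT_eq_TF, kT_eq_TF, hT]
  kf_eq := ⟨ε, fun z w => by rw [kf_eq_fF, kf_eq_fF, hf]⟩
  cov1_eq z w := by rw [cov1_eq_wf1, cov1_eq_wf1, cov2_eq_wf2, h1]
  cov2_eq z w := by rw [cov2_eq_wf2, cov1_eq_wf1, cov2_eq_wf2, h2]

theorem kleinAdm_congr {a b c d a' b' c' d' : K} (h : KleinAdm a b c d) (ea : a = a')
    (eb : b = b') (ec : c = c') (ed : d = d') : KleinAdm a' b' c' d' := by
  subst ea eb ec ed
  exact h

/-- `T = diag(ζ, 1)` is admissible. -/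
theorem kleinAdm_T {ζ : K} (hζ : IsZeta5 ζ) : KleinAdm ζ 0 0 1 := by
  have e1 : ∀ z w : K, ζ * z + 0 * w = ζ * z := fun z w => by ring
  have e2 : ∀ z w : K, 0 * z + 1 * w = w := fun z w => by ring
  have h5 : ∀ z : K, (ζ * z) ^ 5 = z ^ 5 := fun z => by rw [mul_pow, hζ.pow_five, one_mul]
  refine kleinAdm_of_forms (ε := ζ) (fun z w => ?_) (fun z w => ?_) (fun z w => ?_)
    (fun z w => ?_) (fun z w => ?_)
  · rw [e1, e2, HF_T z w ζ hζ]
  · rw [e1, e2, TF_T z w ζ hζ]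
  · rw [e1, e2, fF_T z w ζ hζ]
  · rw [e1, e2]
    unfold wf1
    rw [h5]
    ring
  · rw [e1, e2]
    unfold wf2
    rw [h5]
    ring

section S

variable [CharZero K] {ζ : K}

/-- the matrix of `S`. -/
theorem SzN_eq (ζ z w : K) : SzN ζ z w =
    ((sqrt5 ζ)⁻¹ * -(ζ - ζ ^ 4)) * z + ((sqrt5 ζ)⁻¹ * (ζ ^ 2 - ζ ^ 3)) * w := by
  unfold SzN Sz
  ring

theorem SwN_eq (ζ z w : K) : SwN ζ z w =
    ((sqrt5 ζ)⁻¹ * (ζ ^ 2 - ζ ^ 3)) * z + ((sqrt5 ζ)⁻¹ * (ζ - ζ ^ 4)) * w := by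
  unfold SwN Sw
  ring

theorem inv_sqrt5_pow_eleven (hζ : IsZeta5 ζ) :
    ((sqrt5 ζ)⁻¹) ^ 11 * 5 ^ 5 = (sqrt5 ζ)⁻¹ := by
  rw [show ((sqrt5 ζ)⁻¹) ^ 11 = (((sqrt5 ζ)⁻¹) ^ 2) ^ 5 * (sqrt5 ζ)⁻¹ by ring, hζ.inv_sqrt5_sq]
  field_simp

theorem wf1_SN (hζ : IsZeta5 ζ) (z w : K) : wf1 (SzN ζ z w) (SwN ζ z w) =
    ((sqrt5 ζ)⁻¹ * -(ζ - ζ ^ 4)) * wf1 z w + ((sqrt5 ζ)⁻¹ * (ζ ^ 2 - ζ ^ 3)) * wf2 z w := by
  unfold SzN SwN
  rw [wf1_smul, wf1_S z w ζ hζ, ← mul_assoc, inv_sqrt5_pow_eleven hζ]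
  ring

theorem wf2_SN (hζ : IsZeta5 ζ) (z w : K) : wf2 (SzN ζ z w) (SwN ζ z w) =
    ((sqrt5 ζ)⁻¹ * (ζ ^ 2 - ζ ^ 3)) * wf1 z w + ((sqrt5 ζ)⁻¹ * (ζ - ζ ^ 4)) * wf2 z w := by
  unfold SzN SwN
  rw [wf2_smul, wf2_S z w ζ hζ, ← mul_assoc, inv_sqrt5_pow_eleven hζ]
  ring

/-- `S` is admissible. -/
theorem kleinAdm_S (hζ : IsZeta5 ζ) :
    KleinAdm ((sqrt5 ζ)⁻¹ * -(ζ - ζ ^ 4)) ((sqrt5 ζ)⁻¹ * (ζ ^ 2 - ζ ^ 3))
      ((sqrt5 ζ)⁻¹ * (ζ ^ 2 - ζ ^ 3)) ((sqrt5 ζ)⁻¹ * (ζ - ζ ^ 4)) := by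
  refine kleinAdm_of_forms (ε := 1) (fun z w => ?_) (fun z w => ?_) (fun z w => ?_)
    (fun z w => ?_) (fun z w => ?_)
  · rw [← SzN_eq, ← SwN_eq, HF_SN hζ]
  · rw [← SzN_eq, ← SwN_eq, TF_SN hζ]
  · rw [← SzN_eq, ← SwN_eq, fF_SN hζ, one_mul]
  · rw [← SzN_eq, ← SwN_eq, wf1_SN hζ]
  · rw [← SzN_eq, ← SwN_eq, wf2_SN hζ]

end S

/-! ### moves -/

section Moves

variable [CharZero K] [DecidableEq K] {ζ : K}

omit [CharZero K] [DecidableEq K] in
theorem isParam_congr {A B z w z' w' : K} (h : IsParam A B z w) (ez : z = z') (ew : w = w') :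
    IsParam A B z' w' := by
  subst ez ew
  exact h

theorem kL_congr_param {A B z w z' w' : K} (h : IsParam A B z w) (h' : IsParam A B z' w')
    (hζ : IsZeta5 ζ) (ez : z = z') (ew : w = w') : kL h hζ = kL h' hζ := by
  subst ez ew
  rfl

/-- A *move*: the matrix `!![a, b; c, d]` is admissible, maps Klein parameters of a curve to Klein
parameters of the same curve, and acts on the level structure by the matrix `!![p, q; r, s]` of
determinant one over `ZMod 5`. -/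
structure IsMove (hζ : IsZeta5 ζ) (a b c d : K) (p q r s : ZMod 5) : Prop where
  adm : KleinAdm a b c d
  param : ∀ {A B z w : K}, IsParam A B z w → IsParam A B (a * z + b * w) (c * z + d * w)
  level : ∀ {A B z w : K} (h : IsParam A B z w)
    (h' : IsParam A B (a * z + b * w) (c * z + d * w)) (u v : ZMod 5),
    kL h' hζ (u, v) = kL h hζ (p * u + q * v, r * u + s * v)
  det : p * s - q * r = 1

variable {hζ : IsZeta5 ζ}

theorem IsMove.congr {a b c d a' b' c' d' : K} {p q r s p' q' r' s' : ZMod 5}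
    (m : IsMove hζ a b c d p q r s) (ea : a = a') (eb : b = b') (ec : c = c') (ed : d = d')
    (ep : p = p') (eq : q = q') (er : r = r') (es : s = s') :
    IsMove hζ a' b' c' d' p' q' r' s' := by
  subst ea eb ec ed ep eq er es
  exact m

/-- the identity move. -/
theorem IsMove.one : IsMove hζ 1 0 0 1 1 0 0 1 where
  adm := KleinAdm.one
  param h := isParam_congr h (by ring) (by ring)
  level h h' u v := by
    rw [kL_congr_param h' h hζ (by ring) (by ring)]
    congr 2 <;> ring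
  det := by ring

/-- composition of moves: first `m`, then `m'`. -/
theorem IsMove.comp {a b c d a' b' c' d' : K} {p q r s p' q' r' s' : ZMod 5}
    (m' : IsMove hζ a' b' c' d' p' q' r' s') (m : IsMove hζ a b c d p q r s) :
    IsMove hζ (a' * a + b' * c) (a' * b + b' * d) (c' * a + d' * c) (c' * b + d' * d)
      (p * p' + q * r') (p * q' + q * s') (r * p' + s * r') (r * q' + s * s') where
  adm := KleinAdm.mul m'.adm m.adm
  param h := isParam_congr (m'.param (m.param h)) (by ring) (by ring)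
  level h h' u v := by
    rw [kL_congr_param h' (m'.param (m.param h)) hζ (by ring) (by ring),
      m'.level (m.param h) _ u v, m.level h _]
    congr 2 <;> ring
  det := by linear_combination (p' * s' - q' * r') * m.det + m'.det

/-- the move `T`. -/
theorem IsMove.T : IsMove hζ ζ 0 0 1 1 1 0 1 where
  adm := kleinAdm_T hζ
  param h := isParam_congr (h.T hζ) (by ring) (by ring)
  level h h' u v := by
    rw [kL_congr_param h' (h.T hζ) hζ (by ring) (by ring), kL_T h hζ]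
    congr 2 <;> ring
  det := by ring

/-- the moves `T ^ n`. -/
theorem IsMove.T_pow (n : ℕ) : IsMove hζ (ζ ^ n) 0 0 1 1 (n : ZMod 5) 0 1 := by
  induction n with
  | zero => exact IsMove.one.congr (by simp) rfl rfl rfl rfl (by simp) rfl rfl
  | succ n ih =>
    refine ((IsMove.T (hζ := hζ)).comp ih).congr ?_ ?_ ?_ ?_ ?_ ?_ ?_ ?_
    · ring
    · ring
    · ring
    · ring
    · ring
    · push_cast
      ring
    · ring
    · ring

/-- the move `S`. -/
theorem IsMove.S : IsMove hζ ((sqrt5 ζ)⁻¹ * -(ζ - ζ ^ 4)) ((sqrt5 ζ)⁻¹ * (ζ ^ 2 - ζ ^ 3))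
    ((sqrt5 ζ)⁻¹ * (ζ ^ 2 - ζ ^ 3)) ((sqrt5 ζ)⁻¹ * (ζ - ζ ^ 4)) 0 1 (-1) 0 where
  adm := kleinAdm_S hζ
  param h := isParam_congr (h.S hζ) (SzN_eq ζ _ _) (SwN_eq ζ _ _)
  level h h' u v := by
    rw [kL_congr_param h' (h.S hζ) hζ (SzN_eq ζ _ _).symm (SwN_eq ζ _ _).symm, kL_S h hζ]
    congr 2 <;> ring
  det := by ring

/-- scalar moves, `c ^ 5 = 1`. -/
theorem IsMove.scalar_pos {c : K} (hc : c ^ 5 = 1) : IsMove hζ c 0 0 c 1 0 0 1 where
  adm := KleinAdm.scalar (pow_ten_of_pow_five (Or.inl hc))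
  param h := isParam_congr (h.smul (pow_ten_of_pow_five (Or.inl hc))) (by ring) (by ring)
  level h h' u v := by
    rw [kL_congr_param h' (h.smul (pow_ten_of_pow_five (Or.inl hc))) hζ (by ring) (by ring),
      kL_smul_pos h hζ hc]
    congr 2 <;> ring
  det := by ring

/-- scalar moves, `c ^ 5 = -1`. -/
theorem IsMove.scalar_neg {c : K} (hc : c ^ 5 = -1) : IsMove hζ c 0 0 c (-1) 0 0 (-1) where
  adm := KleinAdm.scalar (pow_ten_of_pow_five (Or.inr hc))
  param h := isParam_congr (h.smul (pow_ten_of_pow_five (Or.inr hc))) (by ring) (by ring)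
  level h h' u v := by
    rw [kL_congr_param h' (h.smul (pow_ten_of_pow_five (Or.inr hc))) hζ (by ring) (by ring),
      kL_smul_neg h hζ hc]
    show kL h hζ (-u, -v) = _
    congr 2 <;> ring
  det := by ring

/-- scalar moves, `c ^ 10 = 1`. -/
theorem IsMove.scalar {c : K} (hc : c ^ 10 = 1) :
    ∃ e : ZMod 5, IsMove hζ c 0 0 c e 0 0 e := by
  have h : (c ^ 5 - 1) * (c ^ 5 + 1) = 0 := by linear_combination hc
  rcases mul_eq_zero.mp h with h | h
  · exact ⟨1, IsMove.scalar_pos (by linear_combination h)⟩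
  · exact ⟨-1, IsMove.scalar_neg (by linear_combination h)⟩

/-! ### transitivity on the nonzero vectors of `(ZMod 5)²` -/

/-- `Reach hζ p r`: some move has level matrix with first column `(p, r)`. -/
def Reach (hζ : IsZeta5 ζ) (p r : ZMod 5) : Prop :=
  ∃ (a b c d : K) (q s : ZMod 5), IsMove hζ a b c d p q r s

theorem reach_one_zero : Reach hζ 1 0 := ⟨1, 0, 0, 1, 0, 1, IsMove.one⟩

/-- precomposing with `T ^ n`. -/
theorem Reach.T {p r : ZMod 5} (h : Reach hζ p r) (n : ℕ) : Reach hζ (p + n * r) r := by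
  obtain ⟨a, b, c, d, q, s, m⟩ := h
  exact ⟨_, _, _, _, _, _, (m.comp (IsMove.T_pow n)).congr rfl rfl rfl rfl (by ring) rfl
    (by ring) rfl⟩

/-- precomposing with `S`. -/
theorem Reach.S {p r : ZMod 5} (h : Reach hζ p r) : Reach hζ r (-p) := by
  obtain ⟨a, b, c, d, q, s, m⟩ := h
  exact ⟨_, _, _, _, _, _, (m.comp IsMove.S).congr rfl rfl rfl rfl (by ring) rfl
    (by ring) rfl⟩

theorem Reach.T' {p r : ZMod 5} (h : Reach hζ p r) (n : ZMod 5) : Reach hζ (p + n * r) r := by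
  have := h.T n.val
  rwa [ZMod.natCast_zmod_val] at this

theorem reach_of_ne_zero {p r : ZMod 5} (h : p ≠ 0 ∨ r ≠ 0) : Reach hζ p r := by
  have : Fact (Nat.Prime 5) := ⟨by norm_num⟩
  -- `(-1 + m n, n)` is reachable for all `m n`
  have key : ∀ m n : ZMod 5, Reach hζ (-1 + m * n) n := by
    intro m n
    have h1 : Reach hζ 0 (-1) := reach_one_zero.S
    have h2 : Reach hζ (-n) (-1) := by
      have := h1.T' n
      rwa [show (0 : ZMod 5) + n * -1 = -n by ring] at this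
    have h3 : Reach hζ (-1) n := by
      have := h2.S
      rwa [neg_neg] at this
    exact h3.T' m
  by_cases hr : r = 0
  · subst hr
    have hp : p ≠ 0 := by tauto
    have h1 := (key p⁻¹ p).S
    rwa [inv_mul_cancel₀ hp, show (-1 : ZMod 5) + 1 = 0 by ring, neg_zero] at h1
  · have h1 := key ((p + 1) * r⁻¹) r
    rwa [mul_assoc, inv_mul_cancel₀ hr, mul_one, show (-1 : ZMod 5) + (p + 1) = p by ring] at h1

/-! ### the main theorems -/

omit [CharZero K] [DecidableEq K] in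
theorem pow_ten_eq_one_of_isParam {A B z w c : K} (h : IsParam A B z w)
    (h' : IsParam A B (c * z) (c * w)) (hA0 : A ≠ 0) (hB0 : B ≠ 0) : c ^ 10 = 1 := by
  have e1 : c ^ 20 * A = A := by
    have := h'.hA
    rw [HF_smul] at this
    rw [← h.hA]
    linear_combination this - h.hA
  have e2 : c ^ 30 * B = B := by
    have := h'.hB
    rw [TF_smul] at this
    rw [← h.hB]
    linear_combination this - h.hB
  have h20 : c ^ 20 = 1 := by
    have : (c ^ 20 - 1) * A = 0 := by linear_combination e1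
    rcases mul_eq_zero.mp this with h | h
    · linear_combination h
    · exact (hA0 h).elim
  have h30 : c ^ 30 = 1 := by
    have : (c ^ 30 - 1) * B = 0 := by linear_combination e2
    rcases mul_eq_zero.mp this with h | h
    · linear_combination h
    · exact (hB0 h).elim
  have : c ^ 30 = c ^ 20 * c ^ 10 := by ring
  rw [h30, h20, one_mul] at this
  exact this.symm

/-- **A2, part 2 (matrix form)**: the conjugate of a Klein parameter under a field endomorphism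
fixing the curve is obtained by a move. -/
theorem exists_move_of_map {A B z0 w0 : K} (h0 : IsParam A B z0 w0) (hA0 : A ≠ 0) (hB0 : B ≠ 0)
    (hζ : IsZeta5 ζ) (σ : K →+* K) (hσA : σ A = A) (hσB : σ B = B) :
    ∃ (a b c d : K) (p q r s : ZMod 5), IsMove hζ a b c d p q r s ∧
      σ z0 = a * z0 + b * w0 ∧ σ w0 = c * z0 + d * w0 := by
  have h0σ := h0.map σ hσA hσB
  -- the point `Q (σ v₀)` in the level structure of `v₀`
  have h5 : (5 : ℕ) • pQ h0σ hζ = 0 := by
    have := five_zsmul_pQ h0σ hζ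
    exact_mod_cast this
  obtain ⟨⟨p, r⟩, hu⟩ := kL_surjective h0 hζ (pQ h0σ hζ) h5
  have hpr : p ≠ 0 ∨ r ≠ 0 := by
    by_contra hcon
    rw [not_or, not_not, not_not] at hcon
    obtain ⟨rfl, rfl⟩ := hcon
    have : kL h0 hζ ((0 : ZMod 5), (0 : ZMod 5)) = 0 := map_zero _
    rw [this] at hu
    exact pQ_ne_zero h0σ hζ hu.symm
  obtain ⟨a, b, c, d, q, s, M⟩ := reach_of_ne_zero (hζ := hζ) hpr
  have h1 := M.param h0
  have e1 : pQ h1 hζ = pQ h0σ hζ := by
    rw [← kL_one_zero h1 hζ, M.level h0 h1, ← hu]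
    congr 2 <;> ring
  obtain ⟨c', m, -, hz, hw⟩ := exists_smul_T_of_pQ_eq h1 h0σ hζ e1
  -- the move `T ^ m ∘ M`
  have M2 := (IsMove.T_pow (hζ := hζ) m).comp M
  have h2 := M2.param h0
  have hc' : c' ^ 10 = 1 := by
    refine pow_ten_eq_one_of_isParam h2 (isParam_congr h0σ ?_ ?_) hA0 hB0
    · rw [hz]
      ring
    · rw [hw]
      ring
  obtain ⟨e, M3⟩ := IsMove.scalar (hζ := hζ) hc'
  refine ⟨_, _, _, _, _, _, _, _, M3.comp M2, ?_, ?_⟩
  · rw [hz]
    ring
  · rw [hw]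
    ring

/-- **A2, part 2 (level structure form)**: `σ` acts on the Klein parameter by an admissible
matrix, and on the level structure of *every* parameter moved by the same matrix via a matrix of
determinant `k`, where `σ ζ = ζ ^ k`. -/
theorem exists_galois_action {A B z0 w0 : K} (h0 : IsParam A B z0 w0) (hA0 : A ≠ 0)
    (hB0 : B ≠ 0) (hζ : IsZeta5 ζ) (σ : K →+* K) (hσA : σ A = A) (hσB : σ B = B) {k : ℕ}
    (hk : k ∈ Finset.Icc 1 4) (hσζ : σ ζ = ζ ^ k) :
    ∃ (a b c d : K) (p q r s : ZMod 5), KleinAdm a b c d ∧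
      σ z0 = a * z0 + b * w0 ∧ σ w0 = c * z0 + d * w0 ∧ p * s - q * r = (k : ZMod 5) ∧
      ∀ (A' B' z w : K) (h : IsParam A' B' z w), σ A' = A' → σ B' = B' →
        σ z = a * z + b * w → σ w = c * z + d * w → ∀ u v : ZMod 5,
          IsConj (⇑σ) (kL h hζ (u, v)) (kL h hζ (p * u + q * v, r * u + s * v)) := by
  obtain ⟨a, b, c, d, p, q, r, s, M, hz, hw⟩ := exists_move_of_map h0 hA0 hB0 hζ σ hσA hσB
  refine ⟨a, b, c, d, p * k, q, r * k, s, M.adm, hz, hw, ?_, ?_⟩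
  · linear_combination (k : ZMod 5) * M.det
  · intro A' B' z w h hA' hB' ez ew u v
    have := isConj_kL h hζ σ hA' hB' hk hσζ u v
    rw [kL_congr_param (h.map σ hA' hB') (M.param h) hζ ez ew, M.level h] at this
    convert this using 3 <;> ring

/-! ### the exponent `k` and the final forms -/

omit [DecidableEq K] in
/-- two roots of the fifth cyclotomic polynomial are powers of each other. -/
theorem exists_pow_eq_of_isZeta5 {ζ' : K} (hζ : IsZeta5 ζ) (hζ' : IsZeta5 ζ') :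
    ∃ k ∈ Finset.Icc 1 4, ζ' = ζ ^ k := by
  obtain ⟨i, hi, e⟩ := hζ.isPrimitiveRoot.eq_pow_of_pow_eq_one hζ'.pow_five
  refine ⟨i, Finset.mem_Icc.mpr ⟨?_, by omega⟩, e.symm⟩
  rcases Nat.eq_zero_or_pos i with h0 | h0
  · exfalso
    subst h0
    rw [pow_zero] at e
    subst e
    unfold IsZeta5 at hζ'
    norm_num at hζ'
  · exact h0

/-- **A2, part 2 (final form)**: for every field endomorphism `σ` fixing `A` and `B`
there are `k ∈ {1, 2, 3, 4}` with `σ ζ = ζ ^ k`, an admissible matrix `!![a, b; c, d]` with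
`σ v₀ = !![a, b; c, d] v₀` and a matrix `!![p, q; r, s]` of determinant `k` over `ZMod 5` such
that for **every** Klein parameter `v` (of any curve fixed by `σ`) with `σ v = !![a, b; c, d] v`,
`σ (kL_v (u, v)) = kL_v (p u + q v, r u + s v)`. -/
theorem exists_galois_action' {A B z0 w0 : K} (h0 : IsParam A B z0 w0) (hA0 : A ≠ 0)
    (hB0 : B ≠ 0) (hζ : IsZeta5 ζ) (σ : K →+* K) (hσA : σ A = A) (hσB : σ B = B) :
    ∃ (k : ℕ) (a b c d : K) (p q r s : ZMod 5), k ∈ Finset.Icc 1 4 ∧ σ ζ = ζ ^ k ∧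
      KleinAdm a b c d ∧ σ z0 = a * z0 + b * w0 ∧ σ w0 = c * z0 + d * w0 ∧
      p * s - q * r = (k : ZMod 5) ∧
      ∀ (A' B' z w : K) (h : IsParam A' B' z w), σ A' = A' → σ B' = B' →
        σ z = a * z + b * w → σ w = c * z + d * w → ∀ u v : ZMod 5,
          IsConj (⇑σ) (kL h hζ (u, v)) (kL h hζ (p * u + q * v, r * u + s * v)) := by
  obtain ⟨k, hk, hσζ⟩ := exists_pow_eq_of_isZeta5 hζ (hζ.map σ)
  obtain ⟨a, b, c, d, p, q, r, s, h⟩ :=
    exists_galois_action h0 hA0 hB0 hζ σ hσA hσB hk hσζ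
  exact ⟨k, a, b, c, d, p, q, r, s, hk, hσζ, h⟩

end Moves

/-! ### specialisation to `ℚ̄` -/

section Qbar

open Polynomial in
/-- an algebraically closed field contains a root of the fifth cyclotomic polynomial. -/
theorem exists_isZeta5 (K : Type*) [Field K] [IsAlgClosed K] : ∃ ζ : K, IsZeta5 ζ := by
  have hd : (X ^ 4 + X ^ 3 + X ^ 2 + X + 1 : K[X]).degree ≠ 0 := by
    have : (X ^ 4 + X ^ 3 + X ^ 2 + X + 1 : K[X]).degree = 4 := by compute_degree!
    rw [this]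
    norm_num
  obtain ⟨ζ, h⟩ := IsAlgClosed.exists_root _ hd
  refine ⟨ζ, ?_⟩
  simpa [IsRoot, IsZeta5] using h

/-- **`GalKlein`** (the input of helper51's `FamilyRational`): every `σ ∈ Gal(ℚ̄/ℚ)` acts on a Klein
parameter of a curve with `σ`-fixed coefficients `A B ≠ 0` by an admissible matrix. -/
theorem galKlein {A B z0 w0 : AlgebraicClosure ℚ} (h0 : IsParam A B z0 w0) (hA0 : A ≠ 0)
    (hB0 : B ≠ 0) (hA : ∀ σ : AlgebraicClosure ℚ ≃ₐ[ℚ] AlgebraicClosure ℚ, σ A = A)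
    (hB : ∀ σ : AlgebraicClosure ℚ ≃ₐ[ℚ] AlgebraicClosure ℚ, σ B = B) :
    Family.GalKlein z0 w0 := by
  classical
  obtain ⟨ζ, hζ⟩ := exists_isZeta5 (AlgebraicClosure ℚ)
  intro σ
  obtain ⟨a, b, c, d, p, q, r, s, M, hz, hw⟩ := exists_move_of_map h0 hA0 hB0 hζ
    (σ : AlgebraicClosure ℚ →+* AlgebraicClosure ℚ) (hA σ) (hB σ)
  exact ⟨a, b, c, d, hz, hw, M.adm⟩

/-- **A2, part 2 for `Gal(ℚ̄/ℚ)`**, in the shape asked by helper28 and helper2. -/
theorem exists_galois_action_algEquiv [DecidableEq (AlgebraicClosure ℚ)]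
    {A B z0 w0 ζ : AlgebraicClosure ℚ} (h0 : IsParam A B z0 w0) (hA0 : A ≠ 0) (hB0 : B ≠ 0)
    (hζ : IsZeta5 ζ) (σ : AlgebraicClosure ℚ ≃ₐ[ℚ] AlgebraicClosure ℚ) (hσA : σ A = A)
    (hσB : σ B = B) :
    ∃ (k : ℕ) (a b c d : AlgebraicClosure ℚ) (p q r s : ZMod 5), k ∈ Finset.Icc 1 4 ∧
      σ ζ = ζ ^ k ∧ KleinAdm a b c d ∧ σ z0 = a * z0 + b * w0 ∧ σ w0 = c * z0 + d * w0 ∧
      p * s - q * r = (k : ZMod 5) ∧
      ∀ (A' B' z w : AlgebraicClosure ℚ) (h : IsParam A' B' z w), σ A' = A' → σ B' = B' →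
        σ z = a * z + b * w → σ w = c * z + d * w → ∀ u v : ZMod 5,
          IsConj (⇑σ) (kL h hζ (u, v)) (kL h hζ (p * u + q * v, r * u + s * v)) :=
  exists_galois_action' h0 hA0 hB0 hζ
    (σ : AlgebraicClosure ℚ →+* AlgebraicClosure ℚ) hσA hσB

/-- helper2's shape: the action of `σ` on the level structure of `v₀` itself is linear of
determinant `k`. -/
theorem exists_matrix_det [DecidableEq (AlgebraicClosure ℚ)]
    {A B z0 w0 ζ : AlgebraicClosure ℚ} (h0 : IsParam A B z0 w0) (hA0 : A ≠ 0) (hB0 : B ≠ 0)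
    (hζ : IsZeta5 ζ) (σ : AlgebraicClosure ℚ ≃ₐ[ℚ] AlgebraicClosure ℚ) (hσA : σ A = A)
    (hσB : σ B = B) :
    ∃ (k : ℕ) (p q r s : ZMod 5), k ∈ Finset.Icc 1 4 ∧ σ ζ = ζ ^ k ∧
      p * s - q * r = (k : ZMod 5) ∧ ∀ a b : ZMod 5,
        IsConj (⇑σ) (kL h0 hζ (a, b)) (kL h0 hζ (p * a + q * b, r * a + s * b)) := by
  obtain ⟨k, a, b, c, d, p, q, r, s, hk, hσζ, -, hz, hw, hdet, h⟩ :=
    exists_galois_action_algEquiv h0 hA0 hB0 hζ σ hσA hσB
  exact ⟨k, p, q, r, s, hk, hσζ, hdet, h A B z0 w0 h0 hσA hσB hz hw⟩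

end Qbar

end Fermat.Agent.S52.GaloisParam
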