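import Fermat.Agent.S52.Klein.Family

set_option autoImplicit false
set_option maxHeartbeats 40000000
set_option maxRecDepth 20000

namespace Fermat.Agent.S52.Klein

variable {K : Type*} [Field K]

/-- `A = wf1 / z` as a function of `a = z^5, b = w^5`. -/
def covA (a b : K) : K := a ^ 2 + 66 * a * b - 11 * b ^ 2

/-- `B = -wf2 / w` as a function of `a = z^5, b = w^5`. -/
def covB (a b : K) : K := 11 * a ^ 2 + 66 * a * b - b ^ 2

theorem famf_core (a b s t : K) :
    (s + t * covA a b) * (s - t * covB a b) *
        gF (a * (s + t * covA a b) ^ 5) (b * (s - t * covB a b) ^ 5) =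
      gF a b * famf (a * b * gF a b ^ 5) (hF a b) (tF a b) s t := by
  simp only [gF, hF, tF, famf, covA, covB]
  ring

theorem famH_core (a b s t : K) :
    hF (a * (s + t * covA a b) ^ 5) (b * (s - t * covB a b) ^ 5) =
      famH (a * b * gF a b ^ 5) (hF a b) (tF a b) s t := by
  simp only [gF, hF, tF, famH, covA, covB]
  ring

end Fermat.Agent.S52.Klein
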