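import Mathlib

/-!
# P-ELL / S52: two independent points of order five in an abelian group (helper60)

`G` an additive commutative group, `P Q : G` with `5 • P = 0 = 5 • Q`.  We define the homomorphism
`L5 P Q : ZMod 5 × ZMod 5 →+ G`, `(a, b) ↦ a Q + b P`, prove that it is injective as soon as
`P ≠ 0` and `Q ∉ {0, ±P, ±2P}`, and that its range is the whole `5`-torsion when the latter has at
most `25` elements.
-/

set_option autoImplicit false

namespace Fermat.Agent.S52.Klein.FiveBasis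

variable {G : Type*} [AddCommGroup G]

/-- `5 P = 0` from `P + P = P₂` and `P₂ + P₂ = -P`. -/
theorem five_nsmul_eq_zero {P P₂ : G} (h2 : P + P = P₂) (h4 : P₂ + P₂ = -P) :
    (5 : ℕ) • P = 0 := by
  have : (5 : ℕ) • P = (P + P) + (P + P) + P := by
    simp only [succ_nsmul, zero_nsmul, zero_add]
    abel
  rw [this, h2, h4]
  abel

theorem five_zsmul_eq_zero {P P₂ : G} (h2 : P + P = P₂) (h4 : P₂ + P₂ = -P) :
    (5 : ℤ) • P = 0 := by
  have := five_nsmul_eq_zero h2 h4
  exact_mod_cast this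

/-- the homomorphism `ZMod 5 →+ G`, `a ↦ a P`, for a point killed by `5`. -/
def mul5 (P : G) (hP : (5 : ℤ) • P = 0) : ZMod 5 →+ G :=
  ZMod.lift 5 ⟨zmultiplesHom G P, by simpa using hP⟩

theorem mul5_intCast (P : G) (hP : (5 : ℤ) • P = 0) (a : ℤ) :
    mul5 P hP (a : ZMod 5) = a • P := by
  simp [mul5]

/-- the homomorphism `(a, b) ↦ a Q + b P`. -/
def L5 (P Q : G) (hP : (5 : ℤ) • P = 0) (hQ : (5 : ℤ) • Q = 0) : ZMod 5 × ZMod 5 →+ G :=
  (mul5 Q hQ).coprod (mul5 P hP)

theorem L5_intCast (P Q : G) (hP : (5 : ℤ) • P = 0) (hQ : (5 : ℤ) • Q = 0) (a b : ℤ) :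
    L5 P Q hP hQ ((a : ZMod 5), (b : ZMod 5)) = a • Q + b • P := by
  simp [L5, mul5_intCast]

theorem L5_one_zero (P Q : G) (hP : (5 : ℤ) • P = 0) (hQ : (5 : ℤ) • Q = 0) :
    L5 P Q hP hQ (1, 0) = Q := by
  have := L5_intCast P Q hP hQ 1 0
  simpa using this

theorem L5_zero_one (P Q : G) (hP : (5 : ℤ) • P = 0) (hQ : (5 : ℤ) • Q = 0) :
    L5 P Q hP hQ (0, 1) = P := by
  have := L5_intCast P Q hP hQ 0 1
  simpa using this

/-- every element of `ZMod 5` is the cast of an integer in `{0, 1, 2, -2, -1}`. -/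
theorem zmod5_cases (a : ZMod 5) :
    a = 0 ∨ a = 1 ∨ a = 2 ∨ a = ((-2 : ℤ) : ZMod 5) ∨ a = ((-1 : ℤ) : ZMod 5) := by
  revert a
  decide

/-- multiples of a point killed by five. -/
theorem mul5_mem (P : G) (hP : (5 : ℤ) • P = 0) (a : ZMod 5) :
    mul5 P hP a = 0 ∨ mul5 P hP a = P ∨ mul5 P hP a = P + P ∨ mul5 P hP a = -(P + P) ∨
      mul5 P hP a = -P := by
  rcases zmod5_cases a with rfl | rfl | rfl | rfl | rfl
  · left; simp
  · right; left
    have := mul5_intCast P hP 1
    simpa using this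
  · right; right; left
    have := mul5_intCast P hP 2
    rw [two_zsmul] at this
    simpa using this
  · right; right; right; left
    rw [mul5_intCast, neg_zsmul, two_zsmul]
  · right; right; right; right
    rw [mul5_intCast, neg_zsmul, one_zsmul]

theorem mul5_injective (P : G) (hP : (5 : ℤ) • P = 0) (hP0 : P ≠ 0) :
    Function.Injective (mul5 P hP) := by
  rw [injective_iff_map_eq_zero]
  intro a ha
  by_contra hne
  apply hP0
  have hunit : IsUnit a := by
    have : Fact (Nat.Prime 5) := ⟨by norm_num⟩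
    exact IsUnit.mk0 a hne
  obtain ⟨b, hb⟩ := hunit.exists_left_inv
  obtain ⟨n, rfl⟩ := ZMod.intCast_surjective a
  obtain ⟨m, rfl⟩ := ZMod.intCast_surjective b
  have h1 : mul5 P hP ((m : ZMod 5) * (n : ZMod 5)) = m • mul5 P hP (n : ZMod 5) := by
    rw [← Int.cast_mul, mul5_intCast, mul5_intCast, mul_zsmul]
  rw [ha, smul_zero, hb] at h1
  have h2 := mul5_intCast P hP 1
  rw [Int.cast_one, one_zsmul] at h2
  rw [← h2, h1]

/-- **injectivity** of `(a, b) ↦ a Q + b P`. -/
theorem L5_injective (P Q : G) (hP : (5 : ℤ) • P = 0) (hQ : (5 : ℤ) • Q = 0) (hP0 : P ≠ 0)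
    (hQ0 : Q ≠ 0) (hQ1 : Q ≠ P) (hQ1' : Q ≠ -P) (hQ2 : Q ≠ P + P) (hQ2' : Q ≠ -(P + P)) :
    Function.Injective (L5 P Q hP hQ) := by
  rw [injective_iff_map_eq_zero]
  rintro ⟨a, b⟩ hab
  have hab' : mul5 Q hQ a + mul5 P hP b = 0 := by
    simpa [L5] using hab
  have ha : a = 0 := by
    by_contra hne
    have : Fact (Nat.Prime 5) := ⟨by norm_num⟩
    obtain ⟨c, hc⟩ := (IsUnit.mk0 a hne).exists_left_inv
    obtain ⟨n, rfl⟩ := ZMod.intCast_surjective a
    obtain ⟨m, rfl⟩ := ZMod.intCast_surjective c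
    obtain ⟨l, rfl⟩ := ZMod.intCast_surjective b
    -- `Q = m n Q = -(m l) P`
    have h1 : mul5 Q hQ ((m : ZMod 5) * (n : ZMod 5)) = Q := by
      rw [hc]
      have := mul5_intCast Q hQ 1
      simpa using this
    have h2 : mul5 Q hQ ((m : ZMod 5) * (n : ZMod 5)) = mul5 P hP (((-(m * l) : ℤ)) : ZMod 5) := by
      rw [← Int.cast_mul, mul5_intCast, mul5_intCast, mul_zsmul, neg_zsmul, mul_zsmul]
      rw [mul5_intCast, mul5_intCast] at hab'
      have : n • Q = -(l • P) := eq_neg_of_add_eq_zero_left hab'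
      rw [this, smul_neg]
    rw [h1] at h2
    rcases mul5_mem P hP (((-(m * l) : ℤ)) : ZMod 5) with h | h | h | h | h <;> rw [h] at h2
    · exact hQ0 h2
    · exact hQ1 h2
    · exact hQ2 h2
    · exact hQ2' h2
    · exact hQ1' h2
  subst ha
  rw [map_zero, zero_add] at hab'
  have hb : b = 0 := mul5_injective P hP hP0 (by rw [hab', map_zero])
  rw [hb]
  rfl

theorem five_zsmul_L5 (P Q : G) (hP : (5 : ℤ) • P = 0) (hQ : (5 : ℤ) • Q = 0)
    (ab : ZMod 5 × ZMod 5) : (5 : ℤ) • L5 P Q hP hQ ab = 0 := by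
  rw [← map_zsmul]
  have : (5 : ℤ) • ab = 0 := by
    have h5 : (5 : ZMod 5) = 0 := by decide
    ext <;> simp [h5]
  rw [this, map_zero]

/-- **surjectivity onto the `5`-torsion**, when the latter has at most `33` elements
(the bound of `S51/Torsion.lean`). -/
theorem L5_surjective (P Q : G) (hP : (5 : ℤ) • P = 0) (hQ : (5 : ℤ) • Q = 0)
    (hinj : Function.Injective (L5 P Q hP hQ))
    (hfin : {R : G | (5 : ℕ) • R = 0}.Finite) (hcard : {R : G | (5 : ℕ) • R = 0}.ncard ≤ 33)
    (R : G) (hR : (5 : ℕ) • R = 0) : ∃ ab, L5 P Q hP hQ ab = R := by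
  classical
  set T : AddSubgroup G := (zsmulAddGroupHom (α := G) 5).ker with hT
  have hmemT : ∀ X : G, X ∈ T ↔ (5 : ℕ) • X = 0 := by
    intro X
    rw [hT, AddMonoidHom.mem_ker, zsmulAddGroupHom_apply]
    constructor
    · intro h; exact_mod_cast h
    · intro h; exact_mod_cast h
  have hTset : (T : Set G) = {R : G | (5 : ℕ) • R = 0} := by
    ext X
    exact hmemT X
  have hTfin : Finite T := by
    have : (T : Set G).Finite := hTset ▸ hfin
    exact this.to_subtype
  have hTcard : Nat.card T ≤ 33 := by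
    have : Nat.card T = (T : Set G).ncard := Nat.card_coe_set_eq _
    rw [this, hTset]
    exact hcard
  have hle : (L5 P Q hP hQ).range ≤ T := by
    rintro X ⟨ab, rfl⟩
    rw [hmemT]
    have := five_zsmul_L5 P Q hP hQ ab
    exact_mod_cast this
  have hrange : Nat.card (L5 P Q hP hQ).range = 25 := by
    have e := Equiv.ofInjective _ hinj
    have h1 : Nat.card (L5 P Q hP hQ).range = Nat.card (ZMod 5 × ZMod 5) :=
      (Nat.card_congr e).symm
    rw [h1, Nat.card_prod, Nat.card_zmod]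
  have hdvd : Nat.card (L5 P Q hP hQ).range ∣ Nat.card T := AddSubgroup.card_dvd_of_le hle
  rw [hrange] at hdvd
  have hpos : 0 < Nat.card T := Nat.card_pos
  have h25 : Nat.card T = 25 := by
    obtain ⟨c, hc⟩ := hdvd
    have : c = 1 := by omega
    omega
  have heq : (L5 P Q hP hQ).range = T :=
    AddSubgroup.eq_of_le_of_card_ge hle (by rw [hrange, h25])
  have hRT : R ∈ T := (hmemT R).mpr hR
  rw [← heq] at hRT
  exact hRT

end Fermat.Agent.S52.Klein.FiveBasis
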