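import Fermat.Agent.S52.Klein.Forms

/-!
# Identities between Klein's forms (certificates generated by exact computer algebra)
-/

set_option autoImplicit false
set_option maxHeartbeats 1600000
set_option maxRecDepth 8000
set_option linter.unusedSimpArgs false

namespace Fermat.Agent.S52.Klein

variable {K : Type*} [Field K]

theorem syzygy (z w : K) :
    TF z w ^ 2 + HF z w ^ 3 = 1728 * fF z w ^ 5 := by
  simp only [fF, HF, TF, hF, tF, gF, XX, YY, X2, Y2]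
  ring

theorem P_on_curve (z w : K) :
    YY z w ^ 2 = XX z w ^ 3 + 27 * HF z w * XX z w + 54 * TF z w := by
  simp only [fF, HF, TF, hF, tF, gF, XX, YY, X2, Y2]
  ring

theorem dblP_x (z w : K) :
    (X2 z w + 2 * XX z w) * (2 * YY z w) ^ 2 = (3 * XX z w ^ 2 + 27 * HF z w) ^ 2 := by
  simp only [fF, HF, TF, hF, tF, gF, XX, YY, X2, Y2]
  ring

theorem dblP_y (z w : K) :
    Y2 z w * (2 * YY z w) = -(YY z w * (2 * YY z w) + (3 * XX z w ^ 2 + 27 * HF z w) * (X2 z w - XX z w)) := by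
  simp only [fF, HF, TF, hF, tF, gF, XX, YY, X2, Y2]
  ring

theorem dbl2P_x (z w : K) :
    (XX z w + 2 * X2 z w) * (2 * Y2 z w) ^ 2 = (3 * X2 z w ^ 2 + 27 * HF z w) ^ 2 := by
  simp only [fF, HF, TF, hF, tF, gF, XX, YY, X2, Y2]
  ring

theorem dbl2P_y (z w : K) :
    -YY z w * (2 * Y2 z w) = -(Y2 z w * (2 * Y2 z w) + (3 * X2 z w ^ 2 + 27 * HF z w) * (XX z w - X2 z w)) := by
  simp only [fF, HF, TF, hF, tF, gF, XX, YY, X2, Y2]
  ring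

theorem X2_sub_XX (z w : K) :
    (X2 z w - XX z w) * (z ^ 2 + z * w - w ^ 2) = -36 * fF z w := by
  simp only [fF, HF, TF, hF, tF, gF, XX, YY, X2, Y2]
  ring

theorem YY_mul_Y2 (z w : K) :
    4 * YY z w * Y2 z w = -(X2 z w - XX z w) ^ 3 := by
  simp only [fF, HF, TF, hF, tF, gF, XX, YY, X2, Y2]
  ring

theorem phi5_sq (ζ : K) (hζ : ζ ^ 4 + ζ ^ 3 + ζ ^ 2 + ζ + 1 = 0) :
    (ζ ^ 2) ^ 4 + (ζ ^ 2) ^ 3 + (ζ ^ 2) ^ 2 + ζ ^ 2 + 1 = 0 := by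
  linear_combination ((1) + ζ*(-1) + ζ^2*(1) + ζ^3*(-1) + ζ^4*(1)) * hζ

theorem zeta_pow5 (ζ : K) (hζ : ζ ^ 4 + ζ ^ 3 + ζ ^ 2 + ζ + 1 = 0) : ζ ^ 5 = 1 := by
  linear_combination ((-1) + ζ*(1)) * hζ

theorem sqrt5_sq (ζ : K) (hζ : ζ ^ 4 + ζ ^ 3 + ζ ^ 2 + ζ + 1 = 0) : sqrt5 ζ ^ 2 = 5 := by
  simp only [sqrt5]
  linear_combination ((-5) + ζ*(5) + ζ^2*(1) + ζ^3*(-3) + ζ^4*(1)) * hζ

theorem euler (z w : K) :
    z * wf2 z w - w * wf1 z w = -12 * fF z w := by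
  simp only [wf1, wf2, fF, gF]
  ring

end Fermat.Agent.S52.Klein
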