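import Fermat.Agent.S52.Klein.Forms

/-!
# Identities between Klein's forms (certificates generated by exact computer algebra)
-/

set_option autoImplicit false
set_option maxHeartbeats 1600000
set_option maxRecDepth 8000
set_option linter.unusedSimpArgs false

namespace Fermat.Agent.S52.Klein

variable {K : Type*} [Field K]

theorem Q_on_curve (z w ζ : K) (hζ : ζ ^ 4 + ζ ^ 3 + ζ ^ 2 + ζ + 1 = 0) :
    5 * M10 ζ z w ^ 2 = N10 ζ z w ^ 3 + 675 * HF z w * N10 ζ z w + 6750 * TF z w := by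
  simp only [fF, HF, TF, hF, tF, gF, XX, YY, X2, Y2, N10, M10, n10, m10]
  linear_combination ((373248*w^30 - 8817984*z^5*w^25 + 58553280*z^10*w^20 - 81414720*z^15*w^15 + 81414720*z^20*w^10 + 16842816*z^25*w^5 + 793152*z^30) + ζ*(559872*w^30 - 12643776*z^5*w^25 + 73249920*z^10*w^20 - 14230080*z^15*w^15 - 73249920*z^20*w^10 - 12643776*z^25*w^5 - 559872*z^30) + ζ^2*(373248*w^30 - 8817984*z^5*w^25 + 58553280*z^10*w^20 - 81414720*z^15*w^15 + 81414720*z^20*w^10 + 16842816*z^25*w^5 + 793152*z^30) + ζ^4*(-93312*w^30 + 3079296*z^5*w^25 - 33592320*z^10*w^20 + 118039680*z^15*w^15 + 33592320*z^20*w^10 + 3079296*z^25*w^5 + 93312*z^30) + ζ^5*(-46656*w^30 + 1539648*z^5*w^25 - 16796160*z^10*w^20 + 59019840*z^15*w^15 + 16796160*z^20*w^10 + 1539648*z^25*w^5 + 46656*z^30)) * hζ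

theorem dblQ_x (z w ζ : K) (hζ : ζ ^ 4 + ζ ^ 3 + ζ ^ 2 + ζ + 1 = 0) :
    (N10 (ζ ^ 2) z w + 2 * N10 ζ z w) * 20 * M10 ζ z w ^ 2 = (3 * N10 ζ z w ^ 2 + 675 * HF z w) ^ 2 := by
  simp only [fF, HF, TF, hF, tF, gF, XX, YY, X2, Y2, N10, M10, n10, m10]
  linear_combination ((-241864704*w^40 + 4679410176*z^5*w^35 - 14139007488*z^10*w^30 - 92466220032*z^15*w^25 + 29888766720*z^20*w^20 + 122783288832*z^25*w^15 - 65409285888*z^30*w^10 - 14673125376*z^35*w^5 - 703759104*z^40) + ζ*(-396389376*w^40 + 7783340544*z^5*w^35 - 26062601472*z^10*w^30 - 131325815808*z^15*w^25 + 44686183680*z^20*w^20 - 38315400192*z^25*w^15 + 46160886528*z^30*w^10 + 9432723456*z^35*w^5 + 443418624*z^40) + ζ^2*(-188116992*w^40 + 2860386048*z^5*w^35 + 6904901376*z^10*w^30 - 183323367936*z^15*w^25 + 139256962560*z^20*w^20 - 113380798464*z^25*w^15 - 135316583424*z^30*w^10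 - 21168200448*z^35*w^5 - 901953792*z^40) + ζ^3*(268738560*w^40 - 9137111040*z^5*w^35 + 105681438720*z^10*w^30 - 438917253120*z^15*w^25 + 267394867200*z^20*w^20 + 2888939520*z^25*w^15 - 15586836480*z^30*w^10 - 1948354560*z^35*w^5 - 67184640*z^40) + ζ^4*(429981696*w^40 - 14342241024*z^5*w^35 + 160163142912*z^10*w^30 - 609703967232*z^15*w^25 + 155859966720*z^20*w^20 - 371359738368*z^25*w^15 - 112690476288*z^30*w^10 - 10600056576*z^35*w^5 - 325845504*z^40) + ζ^5*(277136640*w^40 - 9296674560*z^5*w^35 + 104816436480*z^10*w^30 - 406937364480*z^15*w^25 + 112618252800*z^20*w^20 - 29090949120*z^25*w^15 - 16451838720*z^30*w^10 - 1788791040*z^35*w^5 - 58786560*z^40) + ζ^6*(70543872*w^40 - 2096160768*z^5*w^35 + 18012201984*z^10*w^30 - 14552193024*z^15*w^25 - 223069800960*z^20*w^20 - 421476120576*z^25*w^15 - 103256073216*z^30*w^10 - 8989304832*z^35*w^5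 - 265379328*z^40) + ζ^7*(-3359232*w^40 + 525719808*z^5*w^35 - 14980495104*z^10*w^30 + 156261394944*z^15*w^25 - 552618858240*z^20*w^20 - 47254316544*z^25*w^15 + 15336573696*z^30*w^10 + 2245646592*z^35*w^5 + 80621568*z^40) + ζ^8*(-6718464*w^40 + 337602816*z^5*w^35 - 6152433408*z^10*w^30 + 47227442688*z^15*w^25 - 111534900480*z^20*w^20 - 156234521088*z^25*w^15 - 36469502208*z^30*w^10 - 3108969216*z^35*w^5 - 90699264*z^40)) * hζ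

theorem dblQ_y (z w ζ : K) (hζ : ζ ^ 4 + ζ ^ 3 + ζ ^ 2 + ζ + 1 = 0) :
    10 * M10 (ζ ^ 2) z w * M10 ζ z w = -((3 * N10 ζ z w ^ 2 + 675 * HF z w) * (N10 (ζ ^ 2) z w - N10 ζ z w) + 10 * M10 ζ z w ^ 2) := by
  simp only [fF, HF, TF, hF, tF, gF, XX, YY, X2, Y2, N10, M10, n10, m10]
  linear_combination ((933120*w^30 - 21461760*z^5*w^25 + 131803200*z^10*w^20 - 95644800*z^15*w^15 + 8164800*z^20*w^10 + 4199040*z^25*w^5 + 233280*z^30) + ζ*(1866240*w^30 - 42923520*z^5*w^25 + 263606400*z^10*w^20 - 191289600*z^15*w^15 + 16329600*z^20*w^10 + 8398080*z^25*w^5 + 466560*z^30) + ζ^2*(1772928*w^30 - 39844224*z^5*w^25 + 230014080*z^10*w^20 - 73249920*z^15*w^15 + 49921920*z^20*w^10 + 11477376*z^25*w^5 + 559872*z^30) + ζ^3*(466560*w^30 - 11897280*z^5*w^25 + 92145600*z^10*w^20 - 199454400*z^15*w^15 + 47822400*z^20*w^10 + 13763520*z^25*w^5 +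 699840*z^30) + ζ^4*(-186624*w^30 + 8491392*z^5*w^25 - 119672640*z^10*w^20 + 539343360*z^15*w^15 - 20295360*z^20*w^10 - 17169408*z^25*w^5 - 979776*z^30) + ζ^5*(-466560*w^30 + 9564480*z^5*w^25 - 39657600*z^10*w^20 - 103809600*z^15*w^15 + 39657600*z^20*w^10 + 9564480*z^25*w^5 + 466560*z^30) + ζ^7*(139968*w^30 - 4618944*z^5*w^25 + 50388480*z^10*w^20 - 177059520*z^15*w^15 - 50388480*z^20*w^10 - 4618944*z^25*w^5 - 139968*z^30) + ζ^8*(139968*w^30 - 4618944*z^5*w^25 + 50388480*z^10*w^20 - 177059520*z^15*w^15 - 50388480*z^20*w^10 - 4618944*z^25*w^5 - 139968*z^30)) * hζ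

theorem N10_conj4 (z w ζ : K) (hζ : ζ ^ 4 + ζ ^ 3 + ζ ^ 2 + ζ + 1 = 0) :
    N10 (ζ ^ 4) z w = N10 ζ z w := by
  simp only [fF, HF, TF, hF, tF, gF, XX, YY, X2, Y2, N10, M10, n10, m10]
  linear_combination (ζ^2*(-36*w^10 + 396*z^5*w^5 + 36*z^10) + ζ^4*(36*w^10 - 396*z^5*w^5 - 36*z^10) + ζ^7*(-36*w^10 + 396*z^5*w^5 + 36*z^10) + ζ^8*(36*w^10 - 396*z^5*w^5 - 36*z^10)) * hζ

theorem M10_conj4 (z w ζ : K) (hζ : ζ ^ 4 + ζ ^ 3 + ζ ^ 2 + ζ + 1 = 0) :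
    M10 (ζ ^ 4) z w = -M10 ζ z w := by
  simp only [fF, HF, TF, hF, tF, gF, XX, YY, X2, Y2, N10, M10, n10, m10]
  linear_combination ((-432*w^15 + 4968*z^5*w^10 - 1944*z^10*w^5 - 216*z^15) + ζ^2*(108*w^15 - 1512*z^5*w^10 + 3456*z^10*w^5 + 324*z^15) + ζ^3*(216*w^15 - 1944*z^5*w^10 - 4968*z^10*w^5 - 432*z^15) + ζ^4*(-324*w^15 + 3456*z^5*w^10 + 1512*z^10*w^5 + 108*z^15) + ζ^7*(108*w^15 - 1512*z^5*w^10 + 3456*z^10*w^5 + 324*z^15) + ζ^8*(-108*w^15 + 1512*z^5*w^10 - 3456*z^10*w^5 - 324*z^15)) * hζ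

theorem N10_T (z w ζ : K) (hζ : ζ ^ 4 + ζ ^ 3 + ζ ^ 2 + ζ + 1 = 0) :
    N10 ζ (ζ * z) w = N10 ζ z w := by
  simp only [fF, HF, TF, hF, tF, gF, XX, YY, X2, Y2, N10, M10, n10, m10]
  linear_combination ((198*z^5*w^5 + 93*z^10) + ζ*(-198*z^5*w^5 - 93*z^10) + ζ^2*(396*z^5*w^5 + 36*z^10) + ζ^4*(-396*z^5*w^5 - 36*z^10) + ζ^5*(93*z^10) + ζ^6*(-93*z^10) + ζ^7*(36*z^10) + ζ^9*(-36*z^10)) * hζ

theorem M10_T (z w ζ : K) (hζ : ζ ^ 4 + ζ ^ 3 + ζ ^ 2 + ζ + 1 = 0) :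
    M10 ζ (ζ * z) w = M10 ζ z w := by
  simp only [fF, HF, TF, hF, tF, gF, XX, YY, X2, Y2, N10, M10, n10, m10]
  linear_combination ((-2484*z^5*w^10 + 972*z^10*w^5 + 108*z^15) + ζ*(-2484*z^5*w^10 + 972*z^10*w^5 + 108*z^15) + ζ^2*(1512*z^5*w^10 - 3456*z^10*w^5 - 324*z^15) + ζ^3*(1944*z^5*w^10 + 4968*z^10*w^5 + 432*z^15) + ζ^4*(1512*z^5*w^10 - 3456*z^10*w^5 - 324*z^15) + ζ^5*(972*z^10*w^5 + 108*z^15) + ζ^6*(972*z^10*w^5 + 108*z^15) + ζ^7*(-3456*z^10*w^5 - 324*z^15) + ζ^8*(4968*z^10*w^5 + 432*z^15) + ζ^9*(-3456*z^10*w^5 - 324*z^15) + ζ^10*(108*z^15) + ζ^11*(108*z^15) + ζ^12*(-324*z^15) + ζ^13*(432*z^15) + ζ^14*(-324*z^15)) * hζ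

theorem HF_T (z w ζ : K) (hζ : ζ ^ 4 + ζ ^ 3 + ζ ^ 2 + ζ + 1 = 0) :
    HF (ζ * z) w = HF z w := by
  simp only [fF, HF, TF, hF, tF, gF, XX, YY, X2, Y2]
  linear_combination ((228*z^5*w^15 + 494*z^10*w^10 - 228*z^15*w^5 + z^20) + ζ*(-228*z^5*w^15 - 494*z^10*w^10 + 228*z^15*w^5 - z^20) + ζ^5*(494*z^10*w^10 - 228*z^15*w^5 + z^20) + ζ^6*(-494*z^10*w^10 + 228*z^15*w^5 - z^20) + ζ^10*(-228*z^15*w^5 + z^20) + ζ^11*(228*z^15*w^5 - z^20) + ζ^15*(z^20) + ζ^16*(-z^20)) * hζ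

theorem TF_T (z w ζ : K) (hζ : ζ ^ 4 + ζ ^ 3 + ζ ^ 2 + ζ + 1 = 0) :
    TF (ζ * z) w = TF z w := by
  simp only [fF, HF, TF, hF, tF, gF, XX, YY, X2, Y2]
  linear_combination ((522*z^5*w^25 + 10005*z^10*w^20 + 10005*z^20*w^10 - 522*z^25*w^5 - z^30) + ζ*(-522*z^5*w^25 - 10005*z^10*w^20 - 10005*z^20*w^10 + 522*z^25*w^5 + z^30) + ζ^5*(10005*z^10*w^20 + 10005*z^20*w^10 - 522*z^25*w^5 - z^30) + ζ^6*(-10005*z^10*w^20 - 10005*z^20*w^10 + 522*z^25*w^5 + z^30) + ζ^10*(10005*z^20*w^10 - 522*z^25*w^5 - z^30) + ζ^11*(-10005*z^20*w^10 + 522*z^25*w^5 + z^30) + ζ^15*(10005*z^20*w^10 - 522*z^25*w^5 - z^30) + ζ^16*(-10005*z^20*w^10 + 522*z^25*w^5 + z^30) + ζ^20*(-522*z^25*w^5 - z^30) + ζ^21*(522*z^25*w^5 + z^30) + ζ^25*(-z^30) + ζ^26*(z^30)) * hζ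

theorem fF_T (z w ζ : K) (hζ : ζ ^ 4 + ζ ^ 3 + ζ ^ 2 + ζ + 1 = 0) :
    fF (ζ * z) w = ζ * fF z w := by
  simp only [fF, HF, TF, hF, tF, gF, XX, YY, X2, Y2]
  linear_combination (ζ*(-11*z^6*w^6 - z^11*w) + ζ^2*(11*z^6*w^6 + z^11*w) + ζ^6*(-z^11*w) + ζ^7*(z^11*w)) * hζ

theorem lambda_Q (z w ζ : K) (hζ : ζ ^ 4 + ζ ^ 3 + ζ ^ 2 + ζ + 1 = 0) :
    (N10 (ζ ^ 2) z w - N10 ζ z w) ^ 3 * ((1 + 2 * (ζ ^ 2 + ζ ^ 3)) * w ^ 5 - (18 + 11 * (ζ ^ 2 + ζ ^ 3)) * z ^ 5) = 20 * M10 ζ z w ^ 2 * ((18 + 11 * (ζ ^ 2 + ζ ^ 3)) * w ^ 5 + (1 + 2 * (ζ ^ 2 + ζ ^ 3)) * z ^ 5) := by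
  simp only [fF, HF, TF, hF, tF, gF, XX, YY, X2, Y2, N10, M10, n10, m10]
  linear_combination ((-16796160*w^35 + 385378560*z^5*w^30 - 2350995840*z^10*w^25 + 1589803200*z^15*w^20 - 51321600*z^20*w^15 - 83747520*z^25*w^10 - 8398080*z^30*w^5 - 233280*z^35) + ζ*(-50388480*w^35 + 1156135680*z^5*w^30 - 7052987520*z^10*w^25 + 4769409600*z^15*w^20 - 153964800*z^20*w^15 - 251242560*z^25*w^10 - 25194240*z^30*w^5 - 699840*z^35) + ζ^2*(-60652800*w^35 + 1348358400*z^5*w^30 - 7517448000*z^10*w^25 + 151632000*z^15*w^20 + 1218888000*z^20*w^15 + 193622400*z^25*w^10 + 8164800*z^30*w^5) + ζ^3*(-41057280*w^35 + 936852480*z^5*w^30 - 5627646720*z^10*w^25 + 3153945600*z^15*w^20 + 405907200*z^20*w^15 - 250076160*z^25*w^10 - 43856640*z^30*w^5 - 1866240*z^35) + ζ^4*(-15396480*w^35 + 382812480*z^5*w^30 - 2843449920*z^10*w^25 + 5813337600*z^15*w^20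 - 3892276800*z^20*w^15 - 1225186560*z^25*w^10 - 108008640*z^30*w^5 - 3032640*z^35) + ζ^5*(-1399680*w^35 + 23561280*z^5*w^30 + 73716480*z^10*w^25 - 2672222400*z^15*w^20 + 9387187200*z^20*w^15 + 2389487040*z^25*w^10 + 194088960*z^30*w^5 + 5132160*z^35) + ζ^6*(-1213056*w^35 + 50201856*z^5*w^30 - 772343424*z^10*w^25 + 5196078720*z^15*w^20 - 12429624960*z^20*w^15 - 3621532032*z^25*w^10 - 334430208*z^30*w^5 - 10171008*z^35) + ζ^7*(-93312*w^35 - 1073088*z^5*w^30 + 103436352*z^10*w^25 - 1376818560*z^15*w^20 + 5286358080*z^20*w^15 + 1497937536*z^25*w^10 + 137121984*z^30*w^5 + 4152384*z^35) + ζ^8*(46656*w^35 - 3545856*z^5*w^30 + 83001024*z^10*w^25 - 781254720*z^15*w^20 + 2521056960*z^20*w^15 + 720695232*z^25*w^10 + 66158208*z^30*w^5 + 2006208*z^35) + ζ^9*(-46656*w^35 + 4712256*z^5*w^30 - 121492224*z^10*w^25 + 1201158720*z^15*w^20 -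 3996552960*z^20*w^15 - 1140599232*z^25*w^10 - 104649408*z^30*w^5 - 3172608*z^35) + ζ^10*(1166400*w^35 - 46656000*z^5*w^30 + 689342400*z^10*w^25 - 4414824000*z^15*w^20 + 9908568000*z^20*w^15 + 2900836800*z^25*w^10 + 268272000*z^30*w^5 + 8164800*z^35) + ζ^11*(-466560*w^35 + 21461760*z^5*w^30 - 368115840*z^10*w^25 + 2773699200*z^15*w^20 - 7504617600*z^20*w^15 - 2168104320*z^25*w^10 - 199687680*z^30*w^5 - 6065280*z^35) + ζ^12*(-46656*w^35 + 46656*z^5*w^30 + 32472576*z^10*w^25 - 478457280*z^15*w^20 + 1905431040*z^20*w^15 + 539016768*z^25*w^10 + 49315392*z^30*w^5 + 1492992*z^35) + ζ^13*(-326592*w^35 + 13156992*z^5*w^30 - 196095168*z^10*w^25 + 1269743040*z^15*w^20 - 2892438720*z^20*w^15 - 845826624*z^25*w^10 - 78195456*z^30*w^5 - 2379456*z^35) + ζ^14*(-233280*w^35 + 8398080*z^5*w^30 - 107075520*z^10*w^25 + 547041600*z^15*w^20 -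 801316800*z^20*w^15 - 244244160*z^25*w^10 - 22861440*z^30*w^5 - 699840*z^35) + ζ^15*(186624*w^35 - 7185024*z^5*w^30 + 101056896*z^10*w^25 - 605594880*z^15*w^20 + 1231251840*z^20*w^15 + 363356928*z^25*w^10 + 33685632*z^30*w^5 + 1026432*z^35) + ζ^17*(93312*w^35 - 3592512*z^5*w^30 + 50528448*z^10*w^25 - 302797440*z^15*w^20 + 615625920*z^20*w^15 + 181678464*z^25*w^10 + 16842816*z^30*w^5 + 513216*z^35)) * hζ

theorem wf1_T (z w ζ : K) (hζ : ζ ^ 4 + ζ ^ 3 + ζ ^ 2 + ζ + 1 = 0) :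
    wf1 (ζ ^ 3 * z) (ζ ^ 2 * w) = ζ ^ 3 * wf1 z w := by
  simp only [wf1]
  linear_combination (ζ^3*(11*z*w^10 - 66*z^6*w^5 - z^11) + ζ^4*(-11*z*w^10 + 66*z^6*w^5 + z^11) + ζ^8*(11*z*w^10 - 66*z^6*w^5 - z^11) + ζ^9*(-11*z*w^10 + 66*z^6*w^5 + z^11) + ζ^13*(11*z*w^10 - 66*z^6*w^5 - z^11) + ζ^14*(-11*z*w^10 + 66*z^6*w^5 + z^11) + ζ^18*(11*z*w^10 - 66*z^6*w^5 - z^11) + ζ^19*(-11*z*w^10 + 66*z^6*w^5 + z^11) + ζ^23*(-66*z^6*w^5 - z^11) + ζ^24*(66*z^6*w^5 + z^11) + ζ^28*(-z^11) + ζ^29*(z^11)) * hζ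

theorem wf2_T (z w ζ : K) (hζ : ζ ^ 4 + ζ ^ 3 + ζ ^ 2 + ζ + 1 = 0) :
    wf2 (ζ ^ 3 * z) (ζ ^ 2 * w) = ζ ^ 2 * wf2 z w := by
  simp only [wf2]
  linear_combination (ζ^2*(-w^11 + 66*z^5*w^6 + 11*z^10*w) + ζ^3*(w^11 - 66*z^5*w^6 - 11*z^10*w) + ζ^7*(-w^11 + 66*z^5*w^6 + 11*z^10*w) + ζ^8*(w^11 - 66*z^5*w^6 - 11*z^10*w) + ζ^12*(-w^11 + 66*z^5*w^6 + 11*z^10*w) + ζ^13*(w^11 - 66*z^5*w^6 - 11*z^10*w) + ζ^17*(-w^11 + 66*z^5*w^6 + 11*z^10*w) + ζ^18*(w^11 - 66*z^5*w^6 - 11*z^10*w) + ζ^22*(66*z^5*w^6 + 11*z^10*w) + ζ^23*(-66*z^5*w^6 - 11*z^10*w) + ζ^27*(11*z^10*w) + ζ^28*(-11*z^10*w)) * hζ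

end Fermat.Agent.S52.Klein
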