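import Fermat.Agent.S52.Klein.IdD

/-!
# Identities between Klein's forms (certificates generated by exact computer algebra)
-/

set_option autoImplicit false
set_option maxHeartbeats 1600000
set_option maxRecDepth 8000
set_option linter.unusedSimpArgs false

namespace Fermat.Agent.S52.Klein

variable {K : Type*} [Field K]

theorem wf1_S_cert (z w ζ : K) (hζ : ζ ^ 4 + ζ ^ 3 + ζ ^ 2 + ζ + 1 = 0) :
    wf1 (Sz ζ z w) (Sw ζ z w) = 5 ^ 5 * Sz ζ (wf1 z w) (wf2 z w) := by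
  simp only [wf1, wf2]
  rw [Sz_pow5 z w ζ hζ, Sw_pow5 z w ζ hζ]
  simp only [Sz, Sw]
  linear_combination (ζ*(-30000*z*w^10 + 30000*z^2*w^9 + 75000*z^3*w^8 + 142500*z^4*w^7 + 105000*z^5*w^6 + 390000*z^6*w^5 - 52500*z^7*w^4 + 112500*z^8*w^3 - 52500*z^9*w^2 + 22500*z^10*w) + ζ^2*(-7500*w^11 + 17500*z*w^10 + 15000*z^2*w^9 + 82500*z^3*w^8 + 322500*z^4*w^7 + 337500*z^5*w^6 + 397500*z^6*w^5 - 270000*z^7*w^4 + 390000*z^8*w^3 - 180000*z^9*w^2 + 105000*z^10*w - 12500*z^11) + ζ^3*(-2500*w^11 - 55000*z*w^10 - 97500*z^2*w^9 - 180000*z^3*w^8 - 15000*z^4*w^7 - 592500*z^5*w^6 + 382500*z^6*w^5 - 307500*z^7*w^4 + 240000*z^8*w^3 - 105000*z^9*w^2 - 25000*z^10*w - 2500*z^11) + ζ^4*(5000*w^11 + 67500*z*w^10 + 90000*z^2*w^9 + 157500*z^3*w^8 - 15000*z^4*w^7 + 375000*z^5*w^6 - 465000*z^6*w^5 + 255000*z^7*w^4 - 210000*z^8*w^3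 + 82500*z^9*w^2 + 5000*z^10*w) + ζ^5*(5000*w^11 + 5000*z*w^10 - 22500*z^2*w^9 - 67500*z^3*w^8 - 315000*z^4*w^7 - 150000*z^5*w^6 - 615000*z^6*w^5 + 405000*z^7*w^4 - 472500*z^8*w^3 + 232500*z^9*w^2 - 107500*z^10*w + 12500*z^11) + ζ^6*(-5000*z*w^10 - 15000*z^2*w^9 - 67500*z^3*w^8 - 120000*z^4*w^7 - 75000*z^5*w^6 - 90000*z^6*w^5 - 30000*z^7*w^4 - 60000*z^8*w^3 + 22500*z^9*w^2 + 2500*z^11)) * hζ

theorem wf2_S_cert (z w ζ : K) (hζ : ζ ^ 4 + ζ ^ 3 + ζ ^ 2 + ζ + 1 = 0) :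
    wf2 (Sz ζ z w) (Sw ζ z w) = 5 ^ 5 * Sw ζ (wf1 z w) (wf2 z w) := by
  simp only [wf1, wf2]
  rw [Sz_pow5 z w ζ hζ, Sw_pow5 z w ζ hζ]
  simp only [Sz, Sw]
  linear_combination (ζ*(22500*z*w^10 + 52500*z^2*w^9 + 112500*z^3*w^8 + 52500*z^4*w^7 + 390000*z^5*w^6 - 105000*z^6*w^5 + 142500*z^7*w^4 - 75000*z^8*w^3 + 30000*z^9*w^2 + 30000*z^10*w) + ζ^2*(12500*w^11 + 105000*z*w^10 + 180000*z^2*w^9 + 390000*z^3*w^8 + 270000*z^4*w^7 + 397500*z^5*w^6 - 337500*z^6*w^5 + 322500*z^7*w^4 - 82500*z^8*w^3 + 15000*z^9*w^2 - 17500*z^10*w - 7500*z^11) + ζ^3*(2500*w^11 - 25000*z*w^10 + 105000*z^2*w^9 + 240000*z^3*w^8 + 307500*z^4*w^7 + 382500*z^5*w^6 + 592500*z^6*w^5 - 15000*z^7*w^4 + 180000*z^8*w^3 - 97500*z^9*w^2 + 55000*z^10*w - 2500*z^11) + ζ^4*(5000*z*w^10 - 82500*z^2*w^9 - 210000*z^3*w^8 - 255000*z^4*w^7 - 465000*z^5*w^6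 - 375000*z^6*w^5 - 15000*z^7*w^4 - 157500*z^8*w^3 + 90000*z^9*w^2 - 67500*z^10*w + 5000*z^11) + ζ^5*(-12500*w^11 - 107500*z*w^10 - 232500*z^2*w^9 - 472500*z^3*w^8 - 405000*z^4*w^7 - 615000*z^5*w^6 + 150000*z^6*w^5 - 315000*z^7*w^4 + 67500*z^8*w^3 - 22500*z^9*w^2 - 5000*z^10*w + 5000*z^11) + ζ^6*(-2500*w^11 - 22500*z^2*w^9 - 60000*z^3*w^8 + 30000*z^4*w^7 - 90000*z^5*w^6 + 75000*z^6*w^5 - 120000*z^7*w^4 + 67500*z^8*w^3 - 15000*z^9*w^2 + 5000*z^10*w)) * hζ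

end Fermat.Agent.S52.Klein
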