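import Fermat.Agent.S52.Klein.Forms

/-!
# P-ELL / S52 (C1a): the icosahedral forms `f` and `H` have no common zero away from `5`

Over a field in which `5 ≠ 0`, `fF z w = 0` and `HF z w = 0` force `z = w = 0`
(the resultant of `g = f / (z w)` and `h = H` as binary forms in `a = z ^ 5`, `b = w ^ 5` is
`5 ^ 5` up to sign; explicit Bezout certificates).  This is the input for semistability of the
members of the Klein family at the primes not dividing `30 Δ`.
-/

set_option autoImplicit false

namespace Fermat.Agent.S52.Klein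

variable {K : Type*} [Field K]

/-- Bezout certificate: `U₁ g + V₁ h = 5 ^ 5 b ^ 5`. -/
theorem bezout_gF_hF_b (a b : K) :
    (-3003 * b ^ 3 - 5206 * a * b ^ 2 + 2507 * a ^ 2 * b - 11 * a ^ 3) * gF a b
      + (-122 * b - 11 * a) * hF a b = 3125 * b ^ 5 := by
  simp only [gF, hF]
  ring

/-- Bezout certificate: `U₂ g + V₂ h = 5 ^ 5 a ^ 5`. -/
theorem bezout_gF_hF_a (a b : K) :
    (3003 * a ^ 3 - 5206 * a ^ 2 * b - 2507 * a * b ^ 2 - 11 * b ^ 3) * gF a b
      + (-122 * a + 11 * b) * hF a b = 3125 * a ^ 5 := by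
  simp only [gF, hF]
  ring

theorem gF_hF_eq_zero (h5 : (5 : K) ≠ 0) {a b : K} (hg : gF a b = 0) (hh : hF a b = 0) :
    a = 0 ∧ b = 0 := by
  have h3125 : (3125 : K) ≠ 0 := by
    have : (3125 : K) = 5 ^ 5 := by norm_num
    rw [this]
    exact pow_ne_zero 5 h5
  have ha := bezout_gF_hF_a a b
  have hb := bezout_gF_hF_b a b
  rw [hg, hh, mul_zero, mul_zero, add_zero] at ha hb
  constructor
  · have := (mul_eq_zero.mp ha.symm).resolve_left h3125
    exact pow_eq_zero_iff (by norm_num) |>.mp this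
  · have := (mul_eq_zero.mp hb.symm).resolve_left h3125
    exact pow_eq_zero_iff (by norm_num) |>.mp this

/-- **No common zero**: over a field with `5 ≠ 0`, the forms `f` and `H` vanish simultaneously
only at the origin. -/
theorem fF_HF_eq_zero (h5 : (5 : K) ≠ 0) {z w : K} (hf : fF z w = 0) (hH : HF z w = 0) :
    z = 0 ∧ w = 0 := by
  by_cases hz : z = 0
  · subst hz
    refine ⟨rfl, ?_⟩
    have : HF (0 : K) w = -(w ^ 20) := by simp only [HF, hF]; ring
    rw [this, neg_eq_zero] at hH
    exact pow_eq_zero_iff (by norm_num) |>.mp hH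
  by_cases hw : w = 0
  · subst hw
    exfalso
    have : HF z (0 : K) = -(z ^ 20) := by simp only [HF, hF]; ring
    rw [this, neg_eq_zero] at hH
    exact hz (pow_eq_zero_iff (by norm_num) |>.mp hH)
  · exfalso
    have hg : gF (z ^ 5) (w ^ 5) = 0 := by
      rw [fF] at hf
      rcases mul_eq_zero.mp hf with h | h
      · exact absurd h (mul_ne_zero hz hw)
      · exact h
    have := (gF_hF_eq_zero h5 hg hH).1
    exact hz (pow_eq_zero_iff (by norm_num) |>.mp this)

/-- Contrapositive form: at a nonzero vector, `f = 0` implies `H ≠ 0`. -/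
theorem HF_ne_zero_of_fF_eq_zero (h5 : (5 : K) ≠ 0) {z w : K} (hv : z ≠ 0 ∨ w ≠ 0)
    (hf : fF z w = 0) : HF z w ≠ 0 := by
  intro hH
  obtain ⟨hz, hw⟩ := fF_HF_eq_zero h5 hf hH
  rcases hv with h | h
  · exact h hz
  · exact h hw

end Fermat.Agent.S52.Klein
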