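import Mathlib

/-!
# P-ELL / S52: certificate lemmas for the group law on short Weierstrass curves (helper60)

`shortW A B : y² = x³ + A x + B` over a field `F`.  The Mathlib group law is given by slope
formulas with divisions; here we provide the *cleared-denominator certificates*: two polynomial
identities imply `P₁ + P₂ = (x₃, y₃)` resp. `2 • P₁ = (x₃, y₃)`.  These make an explicit addition
table a matter of `ring`/`linear_combination` identities.

Also: a criterion for a point to have exact order five.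
-/

set_option autoImplicit false

namespace Fermat.Agent.S52.Klein.ShortCurve

open WeierstrassCurve WeierstrassCurve.Affine

variable {F : Type*} [Field F]

/-- the short Weierstrass curve `y² = x³ + A x + B`. -/
abbrev shortW (A B : F) : Affine F := ⟨0, 0, 0, A, B⟩

section Basic

variable (A B : F)

theorem equation_iff (x y : F) : (shortW A B).Equation x y ↔ y ^ 2 = x ^ 3 + A * x + B := by
  rw [Affine.equation_iff]
  simp

theorem negY_eq (x y : F) : (shortW A B).negY x y = -y := by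
  simp [Affine.negY]

theorem Δ_eq : (shortW A B).Δ = -16 * (4 * A ^ 3 + 27 * B ^ 2) := by
  simp only [WeierstrassCurve.Δ, WeierstrassCurve.b₂, WeierstrassCurve.b₄, WeierstrassCurve.b₆,
    WeierstrassCurve.b₈]
  ring

theorem c₄_eq : (shortW A B).c₄ = -48 * A := by
  simp only [WeierstrassCurve.c₄, WeierstrassCurve.b₂, WeierstrassCurve.b₄]
  ring

theorem c₆_eq : (shortW A B).c₆ = -864 * B := by
  simp only [WeierstrassCurve.c₆, WeierstrassCurve.b₂, WeierstrassCurve.b₄, WeierstrassCurve.b₆]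
  ring

variable {A B}

/-- on a short curve with `Δ ≠ 0` every point of the affine curve is nonsingular. -/
theorem nonsingular_of_equation (hΔ : 4 * A ^ 3 + 27 * B ^ 2 ≠ 0) (h2 : (2 : F) ≠ 0) {x y : F}
    (h : y ^ 2 = x ^ 3 + A * x + B) : (shortW A B).Nonsingular x y := by
  refine ((shortW A B).equation_iff_nonsingular_of_Δ_ne_zero ?_).mp ((equation_iff A B x y).mpr h)
  rw [Δ_eq]
  have h16 : (16 : F) ≠ 0 := by
    have : (16 : F) = 2 ^ 4 := by norm_num
    rw [this]
    exact pow_ne_zero 4 h2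
  exact mul_ne_zero (neg_ne_zero.mpr h16) hΔ

theorem equation_of_nonsingular {x y : F} (h : (shortW A B).Nonsingular x y) :
    y ^ 2 = x ^ 3 + A * x + B :=
  (equation_iff A B x y).mp h.1

/-- at a nonsingular point with `y = 0` the derivative `3 x² + A` does not vanish. -/
theorem three_mul_sq_add_ne_zero {x : F} (h : (shortW A B).Nonsingular x 0) :
    3 * x ^ 2 + A ≠ 0 := by
  rw [Affine.nonsingular_iff] at h
  rcases h.2 with h1 | h1
  · intro h0
    apply h1
    simp only [mul_zero, zero_mul, add_zero]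
    rw [← h0]
  · exact absurd (by simp) h1

end Basic

section Law

variable [DecidableEq F] {A B : F}

omit [DecidableEq F] in
theorem some_eq_some {x y x' y' : F} {h : (shortW A B).Nonsingular x y}
    {h' : (shortW A B).Nonsingular x' y'} (hx : x = x') (hy : y = y') :
    Point.some x y h = Point.some x' y' h' := by
  subst hx hy
  rfl

omit [DecidableEq F] in
/-- negation. -/
theorem neg_some_eq {x y : F} (h : (shortW A B).Nonsingular x y) :
    ∃ h' : (shortW A B).Nonsingular x (-y), -Point.some x y h = Point.some x (-y) h' := by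
  have h' : (shortW A B).Nonsingular x (-y) := by
    have := (Affine.nonsingular_neg (W' := shortW A B) x y).mpr h
    rwa [negY_eq] at this
  refine ⟨h', ?_⟩
  rw [Point.neg_some]
  exact some_eq_some rfl (negY_eq A B x y)

/-- **addition certificate**: for `x₁ ≠ x₂`, the two cleared-denominator identities
`(x₃ + x₁ + x₂) (x₁ - x₂)² = (y₁ - y₂)²` and `(y₃ + y₁) (x₁ - x₂) = -(y₁ - y₂) (x₃ - x₁)`
give `(x₁, y₁) + (x₂, y₂) = (x₃, y₃)`. -/
theorem add_of_cert {x₁ y₁ x₂ y₂ x₃ y₃ : F} (h₁ : (shortW A B).Nonsingular x₁ y₁)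
    (h₂ : (shortW A B).Nonsingular x₂ y₂) (hx : x₁ ≠ x₂)
    (hx₃ : (x₃ + x₁ + x₂) * (x₁ - x₂) ^ 2 = (y₁ - y₂) ^ 2)
    (hy₃ : (y₃ + y₁) * (x₁ - x₂) = -(y₁ - y₂) * (x₃ - x₁)) :
    ∃ h₃ : (shortW A B).Nonsingular x₃ y₃,
      Point.some x₁ y₁ h₁ + Point.some x₂ y₂ h₂ = Point.some x₃ y₃ h₃ := by
  have hd : x₁ - x₂ ≠ 0 := sub_ne_zero.mpr hx
  have hX : (shortW A B).addX x₁ x₂ ((shortW A B).slope x₁ x₂ y₁ y₂) = x₃ := by
    rw [Affine.slope_of_X_ne hx]
    simp only [Affine.addX]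
    field_simp
    linear_combination -hx₃
  have hY : (shortW A B).addY x₁ x₂ y₁ ((shortW A B).slope x₁ x₂ y₁ y₂) = y₃ := by
    rw [Affine.addY, hX, negY_eq, Affine.negAddY, hX, Affine.slope_of_X_ne hx]
    field_simp
    linear_combination -hy₃
  have h₃ := Affine.nonsingular_add h₁ h₂ (fun hxy => hx hxy.1)
  rw [hX, hY] at h₃
  refine ⟨h₃, ?_⟩
  rw [Point.add_of_X_ne hx]
  exact some_eq_some hX hY

/-- **doubling certificate**: for `y₁ ≠ 0` (and `2 ≠ 0`), the identities
`(x₃ + 2 x₁) (2 y₁)² = (3 x₁² + A)²` and `(y₃ + y₁) (2 y₁) = -(3 x₁² + A) (x₃ - x₁)`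
give `(x₁, y₁) + (x₁, y₁) = (x₃, y₃)`. -/
theorem add_self_of_cert {x₁ y₁ x₃ y₃ : F} (h₁ : (shortW A B).Nonsingular x₁ y₁)
    (h2 : (2 : F) ≠ 0) (hy : y₁ ≠ 0)
    (hx₃ : (x₃ + 2 * x₁) * (2 * y₁) ^ 2 = (3 * x₁ ^ 2 + A) ^ 2)
    (hy₃ : (y₃ + y₁) * (2 * y₁) = -(3 * x₁ ^ 2 + A) * (x₃ - x₁)) :
    ∃ h₃ : (shortW A B).Nonsingular x₃ y₃,
      Point.some x₁ y₁ h₁ + Point.some x₁ y₁ h₁ = Point.some x₃ y₃ h₃ := by
  have hne : y₁ ≠ (shortW A B).negY x₁ y₁ := by
    rw [negY_eq]
    intro h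
    have : 2 * y₁ = 0 := by linear_combination h
    rcases mul_eq_zero.mp this with h' | h'
    · exact h2 h'
    · exact hy h'
  have hd : 2 * y₁ ≠ 0 := mul_ne_zero h2 hy
  have hsl : (shortW A B).slope x₁ x₁ y₁ y₁ = (3 * x₁ ^ 2 + A) / (2 * y₁) := by
    rw [Affine.slope_of_Y_ne rfl hne, negY_eq]
    congr 1
    · simp
    · ring
  have hX : (shortW A B).addX x₁ x₁ ((shortW A B).slope x₁ x₁ y₁ y₁) = x₃ := by
    rw [hsl]
    simp only [Affine.addX]
    field_simp
    linear_combination -hx₃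
  have hY : (shortW A B).addY x₁ x₁ y₁ ((shortW A B).slope x₁ x₁ y₁ y₁) = y₃ := by
    rw [Affine.addY, hX, negY_eq, Affine.negAddY, hX, hsl]
    field_simp
    linear_combination -hy₃
  have h₃ := Affine.nonsingular_add h₁ h₁ (fun hxy => hne hxy.2)
  rw [hX, hY] at h₃
  refine ⟨h₃, ?_⟩
  rw [Point.add_self_of_Y_ne hne]
  exact some_eq_some hX hY

/-- a point with `y = 0` is `2`-torsion. -/
theorem add_self_of_y_eq_zero {x₁ : F} (h₁ : (shortW A B).Nonsingular x₁ 0) :
    Point.some x₁ 0 h₁ + Point.some x₁ 0 h₁ = 0 := by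
  apply Point.add_self_of_Y_eq
  rw [negY_eq, neg_zero]

/-- inverse points add to zero. -/
theorem add_neg_cert {x₁ y₁ : F} (h₁ : (shortW A B).Nonsingular x₁ y₁)
    (h₂ : (shortW A B).Nonsingular x₁ (-y₁)) :
    Point.some x₁ y₁ h₁ + Point.some x₁ (-y₁) h₂ = 0 := by
  apply Point.add_of_Y_eq rfl
  rw [negY_eq, neg_neg]

end Law

end Fermat.Agent.S52.Klein.ShortCurve
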