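import Fermat.Agent.S52.Klein.Forms
import Fermat.Agent.S52.Klein.IdA
import Fermat.Agent.S52.Klein.ShortCurve
import Fermat.Agent.S52.Klein.FiveBasis

/-!
# P-ELL / S52, package K2 (part P): the rational `5`-torsion point `P(v)` of Klein's curve (helper60)

Klein's curve `E_v : y² = x³ + 27 H(v) x + 54 T(v)` (`kleinW z w`) and the points
`P(v) = (XX, YY)`, `2 P(v) = (X2, Y2)` of the S52 blueprint (note 362; forms and identities from
`Klein/Forms.lean`, `Klein/IdA.lean` of helper52).  We prove: they are nonsingular points of the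
curve, `P + P = 2P`, `2P + 2P = -P`, hence `5 P = 0`, and `P ≠ 0`, `x(2P) ≠ x(P)`, all under the
only hypothesis `f(v) ≠ 0` (and `2 ≠ 0`, `3 ≠ 0` in the field).
-/

set_option autoImplicit false

namespace Fermat.Agent.S52.Klein

open WeierstrassCurve WeierstrassCurve.Affine
open Fermat.Agent.S52.Klein.ShortCurve

variable {K : Type*} [Field K]

/-- Klein's curve `E_v : y² = x³ + 27 H(v) x + 54 T(v)`. -/
abbrev kleinW (z w : K) : Affine K := shortW (27 * HF z w) (54 * TF z w)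

section Identities

variable (z w : K)

/-- the discriminant of Klein's curve. -/
theorem disc_klein :
    4 * (27 * HF z w) ^ 3 + 27 * (54 * TF z w) ^ 2 = 2 ^ 8 * 3 ^ 12 * fF z w ^ 5 := by
  have h := syzygy z w
  linear_combination (78732 : K) * h

end Identities

section Points

variable {z w : K}

theorem XX_ne_X2 (h2 : (2 : K) ≠ 0) (h3 : (3 : K) ≠ 0) (hf : fF z w ≠ 0) : XX z w ≠ X2 z w := by
  intro h
  have h1 := X2_sub_XX z w
  rw [← h, sub_self, zero_mul] at h1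
  have h36 : (36 : K) ≠ 0 := by
    have : (36 : K) = 2 ^ 2 * 3 ^ 2 := by norm_num
    rw [this]
    exact mul_ne_zero (pow_ne_zero 2 h2) (pow_ne_zero 2 h3)
  have : (-36 : K) * fF z w ≠ 0 := mul_ne_zero (neg_ne_zero.mpr h36) hf
  exact this h1.symm

theorem YY_mul_Y2_ne_zero (h2 : (2 : K) ≠ 0) (h3 : (3 : K) ≠ 0) (hf : fF z w ≠ 0) :
    YY z w * Y2 z w ≠ 0 := by
  intro h
  have h1 := YY_mul_Y2 z w
  rw [mul_assoc, h, mul_zero] at h1
  have : X2 z w - XX z w = 0 := by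
    have := neg_eq_zero.mp h1.symm
    exact pow_eq_zero_iff (by norm_num) |>.mp this
  exact XX_ne_X2 h2 h3 hf (sub_eq_zero.mp this).symm

theorem YY_ne_zero (h2 : (2 : K) ≠ 0) (h3 : (3 : K) ≠ 0) (hf : fF z w ≠ 0) : YY z w ≠ 0 :=
  left_ne_zero_of_mul (YY_mul_Y2_ne_zero h2 h3 hf)

theorem Y2_ne_zero (h2 : (2 : K) ≠ 0) (h3 : (3 : K) ≠ 0) (hf : fF z w ≠ 0) : Y2 z w ≠ 0 :=
  right_ne_zero_of_mul (YY_mul_Y2_ne_zero h2 h3 hf)

theorem disc_klein_ne_zero (h2 : (2 : K) ≠ 0) (h3 : (3 : K) ≠ 0) (hf : fF z w ≠ 0) :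
    4 * (27 * HF z w) ^ 3 + 27 * (54 * TF z w) ^ 2 ≠ 0 := by
  rw [disc_klein]
  exact mul_ne_zero (mul_ne_zero (pow_ne_zero 8 h2) (pow_ne_zero 12 h3)) (pow_ne_zero 5 hf)

/-- every point of the affine Klein curve is nonsingular when `f(v) ≠ 0`. -/
theorem nonsingular_klein (h2 : (2 : K) ≠ 0) (h3 : (3 : K) ≠ 0) (hf : fF z w ≠ 0) {x y : K}
    (h : y ^ 2 = x ^ 3 + 27 * HF z w * x + 54 * TF z w) : (kleinW z w).Nonsingular x y :=
  nonsingular_of_equation (disc_klein_ne_zero h2 h3 hf) h2 h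

theorem nonsingular_P (h2 : (2 : K) ≠ 0) (h3 : (3 : K) ≠ 0) (hf : fF z w ≠ 0) :
    (kleinW z w).Nonsingular (XX z w) (YY z w) :=
  nonsingular_klein h2 h3 hf (P_on_curve z w)

/-- the point `P(v)`. -/
def ptP (h2 : (2 : K) ≠ 0) (h3 : (3 : K) ≠ 0) (hf : fF z w ≠ 0) : (kleinW z w).Point :=
  Point.some _ _ (nonsingular_P h2 h3 hf)

theorem ptP_ne_zero (h2 : (2 : K) ≠ 0) (h3 : (3 : K) ≠ 0) (hf : fF z w ≠ 0) :
    ptP h2 h3 hf ≠ 0 :=
  Point.some_ne_zero _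

variable [DecidableEq K]

theorem exists_ptP_add_ptP (h2 : (2 : K) ≠ 0) (h3 : (3 : K) ≠ 0) (hf : fF z w ≠ 0) :
    ∃ h' : (kleinW z w).Nonsingular (X2 z w) (Y2 z w),
      ptP h2 h3 hf + ptP h2 h3 hf = Point.some _ _ h' :=
  add_self_of_cert (nonsingular_P h2 h3 hf) h2 (YY_ne_zero h2 h3 hf)
    (dblP_x z w) (by linear_combination dblP_y z w)

theorem nonsingular_2P (h2 : (2 : K) ≠ 0) (h3 : (3 : K) ≠ 0) (hf : fF z w ≠ 0) :
    (kleinW z w).Nonsingular (X2 z w) (Y2 z w) :=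
  (exists_ptP_add_ptP h2 h3 hf).choose

/-- the point `2 P(v)`. -/
def ptP2 (h2 : (2 : K) ≠ 0) (h3 : (3 : K) ≠ 0) (hf : fF z w ≠ 0) : (kleinW z w).Point :=
  Point.some _ _ (nonsingular_2P h2 h3 hf)

theorem ptP_add_ptP (h2 : (2 : K) ≠ 0) (h3 : (3 : K) ≠ 0) (hf : fF z w ≠ 0) :
    ptP h2 h3 hf + ptP h2 h3 hf = ptP2 h2 h3 hf :=
  (exists_ptP_add_ptP h2 h3 hf).choose_spec

theorem ptP2_add_ptP2 (h2 : (2 : K) ≠ 0) (h3 : (3 : K) ≠ 0) (hf : fF z w ≠ 0) :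
    ptP2 h2 h3 hf + ptP2 h2 h3 hf = -ptP h2 h3 hf := by
  obtain ⟨h', e⟩ := add_self_of_cert (x₃ := XX z w) (y₃ := -YY z w) (nonsingular_2P h2 h3 hf) h2
    (Y2_ne_zero h2 h3 hf) (dbl2P_x z w) (by linear_combination dbl2P_y z w)
  obtain ⟨h'', e'⟩ := neg_some_eq (nonsingular_P h2 h3 hf)
  rw [ptP, e', ptP2, e]

theorem five_zsmul_ptP (h2 : (2 : K) ≠ 0) (h3 : (3 : K) ≠ 0) (hf : fF z w ≠ 0) :
    (5 : ℤ) • ptP h2 h3 hf = 0 :=
  FiveBasis.five_zsmul_eq_zero (ptP_add_ptP h2 h3 hf) (ptP2_add_ptP2 h2 h3 hf)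

end Points

end Fermat.Agent.S52.Klein
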