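import Fermat.Agent.S52.Klein.PointP
import Fermat.Agent.S52.Klein.IdB
import Fermat.Agent.S52.Klein.IdC
import Fermat.Agent.S51.Torsion

/-!
# P-ELL / S52, package K2: the full level-5 structure on Klein's curve (helper60)

`K` a field of characteristic zero, `ζ` a root of the fifth cyclotomic polynomial.
For a *Klein parameter* `v = (z, w)` of the curve `E : y² = x³ + A x + B`
(`IsParam A B z w : 27 H(v) = A`, `54 T(v) = B`, `f(v) ≠ 0`) we construct the points
`pP v = (XX, YY)`, `pQ ζ v = (N10 / 5, M10 / 5)` of `E` (Mathlib points of `shortW A B`) and prove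

* `5 • pP = 0`, `5 • pQ = 0`, `2 • pQ ζ = pQ (ζ²)`, `pQ (ζ⁴) = - pQ ζ`;
* `kL ζ v : ZMod 5 × ZMod 5 →+ E`, `(a, b) ↦ a Q + b P`, is injective;
* `T`-equivariance: `pP (ζ z, w) = pP v + pQ v`, `pQ (ζ z, w) = pQ v`.
-/

set_option autoImplicit false

namespace Fermat.Agent.S52.Klein

open WeierstrassCurve WeierstrassCurve.Affine
open Fermat.Agent.S52.Klein.ShortCurve

variable {K : Type*} [Field K]

/-- the fifth cyclotomic relation. -/
def IsZeta5 (ζ : K) : Prop := ζ ^ 4 + ζ ^ 3 + ζ ^ 2 + ζ + 1 = 0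

theorem IsZeta5.sq {ζ : K} (h : IsZeta5 ζ) : IsZeta5 (ζ ^ 2) := phi5_sq ζ h

theorem IsZeta5.pow_five {ζ : K} (h : IsZeta5 ζ) : ζ ^ 5 = 1 := zeta_pow5 ζ h

theorem IsZeta5.ne_zero {ζ : K} (h : IsZeta5 ζ) : ζ ≠ 0 := by
  rintro rfl
  have := h.pow_five
  simp at this

theorem IsZeta5.pow_four {ζ : K} (h : IsZeta5 ζ) : IsZeta5 (ζ ^ 4) := by
  have := h.sq.sq
  rwa [← pow_mul] at this

/-- `v = (z, w)` is a Klein parameter of the curve `y² = x³ + A x + B`. -/
structure IsParam (A B z w : K) : Prop where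
  hA : 27 * HF z w = A
  hB : 54 * TF z w = B
  hf : fF z w ≠ 0

section CharZero

variable [CharZero K] {A B z w : K}

theorem IsParam.disc_ne_zero (h : IsParam A B z w) : 4 * A ^ 3 + 27 * B ^ 2 ≠ 0 := by
  rw [← h.hA, ← h.hB]
  exact disc_klein_ne_zero two_ne_zero three_ne_zero h.hf

theorem IsParam.nonsingular (h : IsParam A B z w) {x y : K} (e : y ^ 2 = x ^ 3 + A * x + B) :
    (shortW A B).Nonsingular x y :=
  nonsingular_of_equation h.disc_ne_zero two_ne_zero e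

omit [CharZero K] in
theorem IsParam.P_equation (h : IsParam A B z w) :
    YY z w ^ 2 = XX z w ^ 3 + A * XX z w + B := by
  rw [← h.hA, ← h.hB]
  exact P_on_curve z w

theorem IsParam.Q_equation (h : IsParam A B z w) {ζ : K} (hζ : IsZeta5 ζ) :
    (M10 ζ z w / 5) ^ 2 = (N10 ζ z w / 5) ^ 3 + A * (N10 ζ z w / 5) + B := by
  rw [← h.hA, ← h.hB]
  have := Q_on_curve z w ζ hζ
  field_simp
  linear_combination this

/-- the point `P(v)`. -/
def pP (h : IsParam A B z w) : (shortW A B).Point :=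
  Point.some _ _ (h.nonsingular h.P_equation)

/-- the point `Q(v)` (depending on the choice of `ζ`). -/
def pQ (h : IsParam A B z w) {ζ : K} (hζ : IsZeta5 ζ) : (shortW A B).Point :=
  Point.some _ _ (h.nonsingular (h.Q_equation hζ))

theorem pP_ne_zero (h : IsParam A B z w) : pP h ≠ 0 := Point.some_ne_zero _

theorem pQ_ne_zero (h : IsParam A B z w) {ζ : K} (hζ : IsZeta5 ζ) : pQ h hζ ≠ 0 :=
  Point.some_ne_zero _

/-- `y(Q) ≠ 0`. -/
theorem IsParam.M10_ne_zero (h : IsParam A B z w) {ζ : K} (hζ : IsZeta5 ζ) :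
    M10 ζ z w ≠ 0 := by
  intro h0
  have hns := h.nonsingular (h.Q_equation hζ)
  rw [h0, zero_div] at hns
  have h1 := three_mul_sq_add_ne_zero hns
  have h2 := dblQ_x z w ζ hζ
  rw [h0] at h2
  have h3 : 3 * N10 ζ z w ^ 2 + 675 * HF z w = 0 := by
    have : (3 * N10 ζ z w ^ 2 + 675 * HF z w) ^ 2 = 0 := by rw [← h2]; ring
    exact pow_eq_zero_iff (by norm_num) |>.mp this
  apply h1
  rw [← h.hA]
  field_simp
  linear_combination h3

theorem pP_eq_iff_of_coord (h : IsParam A B z w) {x y : K}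
    (hns : (shortW A B).Nonsingular x y) (hx : x = XX z w) (hy : y = YY z w) :
    Point.some x y hns = pP h :=
  some_eq_some hx hy

/-! ### independence of coordinates -/

theorem IsParam.xP_ne_xQ (h : IsParam A B z w) {ζ : K} (hζ : IsZeta5 ζ) :
    XX z w ≠ N10 ζ z w / 5 := by
  intro e
  have h1 := indep1 z w ζ hζ
  have h2 : 5 * XX z w - N10 ζ z w = 0 := by
    rw [e]
    field_simp
    ring
  rw [h2, zero_mul] at h1
  have : (180 : K) * fF z w ^ 2 ≠ 0 := mul_ne_zero (by norm_num) (pow_ne_zero 2 h.hf)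
  exact this h1.symm

theorem IsParam.x2P_ne_xQ (h : IsParam A B z w) {ζ : K} (hζ : IsZeta5 ζ) :
    X2 z w ≠ N10 ζ z w / 5 := by
  intro e
  have h1 := indep2 z w ζ hζ
  have h2 : 5 * X2 z w - N10 ζ z w = 0 := by
    rw [e]
    field_simp
    ring
  rw [h2, zero_mul] at h1
  have : (180 : K) * fF z w ^ 2 ≠ 0 := mul_ne_zero (by norm_num) (pow_ne_zero 2 h.hf)
  exact this h1.symm

/-- `Q_{ζ⁴} = - Q_ζ`. -/
theorem pQ_pow_four (h : IsParam A B z w) {ζ : K} (hζ : IsZeta5 ζ) :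
    pQ h hζ.pow_four = -pQ h hζ := by
  obtain ⟨h'', e'⟩ := neg_some_eq (h.nonsingular (h.Q_equation hζ))
  rw [pQ, pQ, e']
  apply some_eq_some
  · rw [N10_conj4 z w ζ hζ]
  · rw [M10_conj4 z w ζ hζ, neg_div]

theorem pQ_congr (h : IsParam A B z w) {ζ ζ' : K} (hζ : IsZeta5 ζ) (hζ' : IsZeta5 ζ')
    (e : ζ = ζ') : pQ h hζ = pQ h hζ' := by
  subst e
  rfl

variable [DecidableEq K]

/-- `P + P = 2P = (X2, Y2)`. -/
theorem exists_pP_add_pP (h : IsParam A B z w) :
    ∃ h' : (shortW A B).Nonsingular (X2 z w) (Y2 z w), pP h + pP h = Point.some _ _ h' := by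
  refine add_self_of_cert _ two_ne_zero (YY_ne_zero two_ne_zero three_ne_zero h.hf) ?_ ?_
  · rw [← h.hA]
    exact dblP_x z w
  · rw [← h.hA]
    linear_combination dblP_y z w

/-- the point `2 P(v) = (X2, Y2)`. -/
def pP2 (h : IsParam A B z w) : (shortW A B).Point :=
  Point.some _ _ (exists_pP_add_pP h).choose

theorem pP_add_pP (h : IsParam A B z w) : pP h + pP h = pP2 h :=
  (exists_pP_add_pP h).choose_spec

theorem pP2_add_pP2 (h : IsParam A B z w) : pP2 h + pP2 h = -pP h := by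
  obtain ⟨h', e⟩ := add_self_of_cert (x₃ := XX z w) (y₃ := -YY z w)
    (exists_pP_add_pP h).choose two_ne_zero (Y2_ne_zero two_ne_zero three_ne_zero h.hf)
    (by rw [← h.hA]; exact dbl2P_x z w) (by rw [← h.hA]; linear_combination dbl2P_y z w)
  obtain ⟨h'', e'⟩ := neg_some_eq (h.nonsingular h.P_equation)
  rw [pP, e', pP2, e]

theorem five_zsmul_pP (h : IsParam A B z w) : (5 : ℤ) • pP h = 0 :=
  FiveBasis.five_zsmul_eq_zero (pP_add_pP h) (pP2_add_pP2 h)

/-- `Q_ζ + Q_ζ = Q_{ζ²}`. -/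
theorem pQ_add_pQ (h : IsParam A B z w) {ζ : K} (hζ : IsZeta5 ζ) :
    pQ h hζ + pQ h hζ = pQ h hζ.sq := by
  have h5 : (5 : K) ≠ 0 := by norm_num
  obtain ⟨h', e⟩ := add_self_of_cert (x₃ := N10 (ζ ^ 2) z w / 5) (y₃ := M10 (ζ ^ 2) z w / 5)
    (h.nonsingular (h.Q_equation hζ)) two_ne_zero
    (div_ne_zero (h.M10_ne_zero hζ) h5)
    (by
      rw [← h.hA]
      have := dblQ_x z w ζ hζ
      field_simp
      linear_combination this)
    (by
      rw [← h.hA]
      have := dblQ_y z w ζ hζ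
      field_simp
      linear_combination this)
  rw [pQ, e, pQ]

theorem pQ_sq_add_pQ_sq (h : IsParam A B z w) {ζ : K} (hζ : IsZeta5 ζ) :
    pQ h hζ.sq + pQ h hζ.sq = -pQ h hζ := by
  rw [pQ_add_pQ h hζ.sq, ← pQ_pow_four h hζ]
  exact pQ_congr h _ _ (by rw [← pow_mul])

theorem five_zsmul_pQ (h : IsParam A B z w) {ζ : K} (hζ : IsZeta5 ζ) :
    (5 : ℤ) • pQ h hζ = 0 :=
  FiveBasis.five_zsmul_eq_zero (pQ_add_pQ h hζ) (pQ_sq_add_pQ_sq h hζ)

/-- the `x`-coordinate of a point (`0` at infinity). -/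
def xOf {A B : K} : (shortW A B).Point → K
  | .zero => 0
  | .some x _ _ => x

omit [CharZero K] [DecidableEq K] in
theorem xOf_neg {A B : K} (R : (shortW A B).Point) : xOf (-R) = xOf R := by
  rcases R with _ | ⟨x, y, hxy⟩
  · rfl
  · rw [Point.neg_some]
    rfl

omit [DecidableEq K] in
theorem xOf_pP (h : IsParam A B z w) : xOf (pP h) = XX z w := rfl

theorem xOf_pP2 (h : IsParam A B z w) : xOf (pP2 h) = X2 z w := rfl

omit [DecidableEq K] in
theorem xOf_pQ (h : IsParam A B z w) {ζ : K} (hζ : IsZeta5 ζ) :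
    xOf (pQ h hζ) = N10 ζ z w / 5 := rfl

/-- the level structure `(a, b) ↦ a Q(v) + b P(v)`. -/
def kL (h : IsParam A B z w) {ζ : K} (hζ : IsZeta5 ζ) :
    ZMod 5 × ZMod 5 →+ (shortW A B).Point :=
  FiveBasis.L5 (pP h) (pQ h hζ) (five_zsmul_pP h) (five_zsmul_pQ h hζ)

theorem kL_intCast (h : IsParam A B z w) {ζ : K} (hζ : IsZeta5 ζ) (a b : ℤ) :
    kL h hζ ((a : ZMod 5), (b : ZMod 5)) = a • pQ h hζ + b • pP h :=
  FiveBasis.L5_intCast _ _ _ _ a b

theorem kL_one_zero (h : IsParam A B z w) {ζ : K} (hζ : IsZeta5 ζ) :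
    kL h hζ (1, 0) = pQ h hζ :=
  FiveBasis.L5_one_zero _ _ _ _

theorem kL_zero_one (h : IsParam A B z w) {ζ : K} (hζ : IsZeta5 ζ) :
    kL h hζ (0, 1) = pP h :=
  FiveBasis.L5_zero_one _ _ _ _

theorem kL_injective (h : IsParam A B z w) {ζ : K} (hζ : IsZeta5 ζ) :
    Function.Injective (kL h hζ) := by
  apply FiveBasis.L5_injective _ _ _ _ (pP_ne_zero h) (pQ_ne_zero h hζ)
  · intro e
    have := congrArg xOf e
    rw [xOf_pQ, xOf_pP] at this
    exact h.xP_ne_xQ hζ this.symm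
  · intro e
    have := congrArg xOf e
    rw [xOf_neg, xOf_pQ, xOf_pP] at this
    exact h.xP_ne_xQ hζ this.symm
  · intro e
    rw [pP_add_pP] at e
    have := congrArg xOf e
    rw [xOf_pQ, xOf_pP2] at this
    exact h.x2P_ne_xQ hζ this.symm
  · intro e
    rw [pP_add_pP] at e
    have := congrArg xOf e
    rw [xOf_neg, xOf_pQ, xOf_pP2] at this
    exact h.x2P_ne_xQ hζ this.symm

/-- the level structure is onto the `5`-torsion. -/
theorem kL_surjective (h : IsParam A B z w) {ζ : K} (hζ : IsZeta5 ζ) (R : (shortW A B).Point)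
    (hR : (5 : ℕ) • R = 0) : ∃ ab, kL h hζ ab = R := by
  have hfin := Fermat.Agent.S51.five_torsion_finite (E := shortW A B) (two_ne_zero)
    (three_ne_zero) (by norm_num : (5 : K) ≠ 0)
  exact FiveBasis.L5_surjective _ _ _ _ (kL_injective h hζ) hfin.1 hfin.2 R hR

/-- the level structure as a bijection onto the `5`-torsion. -/
theorem kL_mem_iff (h : IsParam A B z w) {ζ : K} (hζ : IsZeta5 ζ) (R : (shortW A B).Point) :
    (5 : ℕ) • R = 0 ↔ ∃ ab, kL h hζ ab = R := by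
  refine ⟨kL_surjective h hζ R, ?_⟩
  rintro ⟨ab, rfl⟩
  have := FiveBasis.five_zsmul_L5 (pP h) (pQ h hζ) (five_zsmul_pP h) (five_zsmul_pQ h hζ) ab
  exact_mod_cast this

/-! ### the substitution `T : (z, w) ↦ (ζ z, w)` -/

omit [CharZero K] [DecidableEq K] in
theorem IsParam.T (h : IsParam A B z w) {ζ : K} (hζ : IsZeta5 ζ) : IsParam A B (ζ * z) w where
  hA := by rw [HF_T z w ζ hζ]; exact h.hA
  hB := by rw [TF_T z w ζ hζ]; exact h.hB
  hf := by rw [fF_T z w ζ hζ]; exact mul_ne_zero hζ.ne_zero h.hf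

omit [DecidableEq K] in
theorem pQ_T (h : IsParam A B z w) {ζ : K} (hζ : IsZeta5 ζ) :
    pQ (h.T hζ) hζ = pQ h hζ := by
  rw [pQ, pQ]
  apply some_eq_some
  · rw [N10_T z w ζ hζ]
  · rw [M10_T z w ζ hζ]

theorem pP_T (h : IsParam A B z w) {ζ : K} (hζ : IsZeta5 ζ) :
    pP (h.T hζ) = pP h + pQ h hζ := by
  have h5 : (5 : K) ≠ 0 := by norm_num
  obtain ⟨h', e⟩ := add_of_cert (x₃ := XX (ζ * z) w) (y₃ := YY (ζ * z) w)
    (h.nonsingular h.P_equation) (h.nonsingular (h.Q_equation hζ)) (h.xP_ne_xQ hζ)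
    (by
      have := add_PQ_x z w ζ hζ
      field_simp
      linear_combination this)
    (by
      have := add_PQ_y z w ζ hζ
      field_simp
      linear_combination this)
  unfold pP pQ
  exact e.symm

theorem kL_T (h : IsParam A B z w) {ζ : K} (hζ : IsZeta5 ζ) (a b : ZMod 5) :
    kL (h.T hζ) hζ (a, b) = kL h hζ (a + b, b) := by
  obtain ⟨m, rfl⟩ := ZMod.intCast_surjective a
  obtain ⟨n, rfl⟩ := ZMod.intCast_surjective b
  rw [← Int.cast_add, kL_intCast, kL_intCast, pQ_T h hζ, pP_T h hζ, add_smul, smul_add]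
  abel

end CharZero

end Fermat.Agent.S52.Klein
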